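/-
DS-T, final assembly, piece [T-ABS]: THE ABSTRACT MOD-`ℓ` PACKAGE.

`V` a finite `𝔽_ℓ`-vector space with an action `ρV` of `Γℚ` of finite level, commuting
endomorphisms `T_p` (`p ∤ M`) and `⟨d⟩` (`d ∈ (ℤ/M)ˣ`) commuting with `Γℚ`, such that for every
`p ∤ M ℓ`: inertia at `p` acts trivially and every Frobenius element `φ` at `p` satisfies the
Eichler–Shimura relation with diamond `⟨p⟩ φ² − T_p φ + p = 0` on `V`.  Then a nonzero simultaneous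
eigenvector `w ∈ k ⊗ V` (`T_p w = t_p w`, `⟨d⟩ w = ψ'(d) w`) gives a semisimple
`r : Γℚ → GL₂(k)` of finite level, unramified outside `M ℓ`, with
`tr r(Frob_p) = t_p ψ'(p)⁻¹`, `det r(Frob_p) = p ψ'(p)⁻¹`
(`W := k ⊗ V`, `E :=` the simultaneous eigenspace, then `dspk_galois`).
-/
import Mathlib
import Fermat.Agent.DS.Pack.Galois
import Fermat.Agent.DS.HeckeG1.Coset

set_option autoImplicit false
set_option linter.unusedSectionVars false
set_option linter.style.haveILetI false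

noncomputable section

namespace Fermat.Agent.DS

open TensorProduct

/-- `p` as a unit of `ZMod M` (`1` if `p` is not coprime to `M`) -/
def dst_u (M p : ℕ) : (ZMod M)ˣ :=
  if h : p.Coprime M then ZMod.unitOfCoprime p h else 1

theorem dst_u_eq {M p : ℕ} [Fact p.Prime] (hpM : ¬ p ∣ M) : dst_u M p = g1t_pU hpM := by
  have h : p.Coprime M := (Nat.Prime.coprime_iff_not_dvd Fact.out).2 hpM
  rw [dst_u, dif_pos h]
  rfl

section Base

variable {ℓ : ℕ} {k : Type} [Field k] [Algebra (ZMod ℓ) k]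
  {V : Type} [AddCommGroup V] [Module (ZMod ℓ) V]

/-- the Galois action on `k ⊗ V` -/
def dst_rhoW (ρV : ds_G →* Module.End (ZMod ℓ) V) : ds_G →* Module.End k (k ⊗[ZMod ℓ] V) :=
  ((Module.End.baseChangeHom (ZMod ℓ) k V :
    Module.End (ZMod ℓ) V →ₐ[ZMod ℓ] Module.End k (k ⊗[ZMod ℓ] V)) :
      Module.End (ZMod ℓ) V →* Module.End k (k ⊗[ZMod ℓ] V)).comp ρV

theorem dst_rhoW_apply (ρV : ds_G →* Module.End (ZMod ℓ) V) (σ : ds_G) :
    dst_rhoW (k := k) ρV σ = (ρV σ).baseChange k := rfl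

theorem dst_rhoW_finiteLevel (ρV : ds_G →* Module.End (ZMod ℓ) V)
    (h : GaloisFactorsThroughFiniteLevel ρV) :
    GaloisFactorsThroughFiniteLevel (dst_rhoW (k := k) ρV) := by
  obtain ⟨L, hL, hLρ⟩ := h
  refine ⟨L, hL, fun σ hσ => ?_⟩
  rw [dst_rhoW_apply, hLρ σ hσ]
  exact LinearMap.baseChange_one _ _

theorem dst_bch (f : Module.End (ZMod ℓ) V) :
    Module.End.baseChangeHom (ZMod ℓ) k V f = f.baseChange k := rfl

/-- commuting endomorphisms commute after base change -/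
theorem dst_baseChange_comm {f g : Module.End (ZMod ℓ) V} (h : Commute f g)
    (w : k ⊗[ZMod ℓ] V) : f.baseChange k (g.baseChange k w) = g.baseChange k (f.baseChange k w) := by
  have h1 : f.baseChange k * g.baseChange k = g.baseChange k * f.baseChange k := by
    rw [← LinearMap.baseChange_mul, ← LinearMap.baseChange_mul, h.eq]
  exact LinearMap.congr_fun h1 w

end Base

section Main

variable {ℓ : ℕ} [hℓ : Fact ℓ.Prime] {k : Type} [Field k] [Algebra (ZMod ℓ) k]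
  {M : ℕ} {V : Type} [AddCommGroup V] [Module (ZMod ℓ) V]

/-- the simultaneous eigenspace in `k ⊗ V` -/
def dst_E (Tp : ∀ (p : ℕ) [Fact p.Prime], ¬ p ∣ M → Module.End (ZMod ℓ) V)
    (Dd : (ZMod M)ˣ → Module.End (ZMod ℓ) V) (t : ℕ → k) (ψ' : (ZMod M)ˣ →* kˣ) :
    Submodule k (k ⊗[ZMod ℓ] V) where
  carrier := {w | (∀ (p : ℕ) [Fact p.Prime] (hpM : ¬ p ∣ M),
      (Tp p hpM).baseChange k w = t p • w) ∧ ∀ d, (Dd d).baseChange k w = (ψ' d : k) • w}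
  add_mem' := by
    rintro a b ⟨ha1, ha2⟩ ⟨hb1, hb2⟩
    refine ⟨fun p _ hpM => ?_, fun d => ?_⟩
    · rw [map_add, ha1 p hpM, hb1 p hpM, smul_add]
    · rw [map_add, ha2 d, hb2 d, smul_add]
  zero_mem' := ⟨fun p _ hpM => by rw [map_zero, smul_zero], fun d => by rw [map_zero, smul_zero]⟩
  smul_mem' := by
    rintro c a ⟨ha1, ha2⟩
    refine ⟨fun p _ hpM => ?_, fun d => ?_⟩
    · rw [map_smul, ha1 p hpM, smul_comm]
    · rw [map_smul, ha2 d, smul_comm]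

theorem dst_mem_E {Tp : ∀ (p : ℕ) [Fact p.Prime], ¬ p ∣ M → Module.End (ZMod ℓ) V}
    {Dd : (ZMod M)ˣ → Module.End (ZMod ℓ) V} {t : ℕ → k} {ψ' : (ZMod M)ˣ →* kˣ}
    {w : k ⊗[ZMod ℓ] V} :
    w ∈ dst_E Tp Dd t ψ' ↔ (∀ (p : ℕ) [Fact p.Prime] (hpM : ¬ p ∣ M),
      (Tp p hpM).baseChange k w = t p • w) ∧ ∀ d, (Dd d).baseChange k w = (ψ' d : k) • w :=
  Iff.rfl

/-- the eigenspace is stable under the Galois action -/
theorem dst_E_stable (ρV : ds_G →* Module.End (ZMod ℓ) V)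
    (Tp : ∀ (p : ℕ) [Fact p.Prime], ¬ p ∣ M → Module.End (ZMod ℓ) V)
    (Dd : (ZMod M)ˣ → Module.End (ZMod ℓ) V)
    (hcT : ∀ (p : ℕ) [Fact p.Prime] (hpM : ¬ p ∣ M) (σ : ds_G), Commute (Tp p hpM) (ρV σ))
    (hcD : ∀ (d : (ZMod M)ˣ) (σ : ds_G), Commute (Dd d) (ρV σ))
    (t : ℕ → k) (ψ' : (ZMod M)ˣ →* kˣ) (σ : ds_G) {w : k ⊗[ZMod ℓ] V}
    (hw : w ∈ dst_E Tp Dd t ψ') : dst_rhoW (k := k) ρV σ w ∈ dst_E Tp Dd t ψ' := by
  obtain ⟨h1, h2⟩ := hw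
  refine ⟨fun p _ hpM => ?_, fun d => ?_⟩
  · rw [dst_rhoW_apply, dst_baseChange_comm (hcT p hpM σ), h1 p hpM, map_smul]
  · rw [dst_rhoW_apply, dst_baseChange_comm (hcD d σ), h2 d, map_smul]

variable [NeZero M] [Finite V] [IsAlgClosed k]

/-- **[T-ABS]: the abstract mod-`ℓ` package.** -/
theorem dst_abstract (h2 : (2 : k) ≠ 0)
    (ρV : ds_G →* Module.End (ZMod ℓ) V) (hρV : GaloisFactorsThroughFiniteLevel ρV)
    (Tp : ∀ (p : ℕ) [Fact p.Prime], ¬ p ∣ M → Module.End (ZMod ℓ) V)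
    (Dd : (ZMod M)ˣ → Module.End (ZMod ℓ) V)
    (hcT : ∀ (p : ℕ) [Fact p.Prime] (hpM : ¬ p ∣ M) (σ : ds_G), Commute (Tp p hpM) (ρV σ))
    (hcD : ∀ (d : (ZMod M)ˣ) (σ : ds_G), Commute (Dd d) (ρV σ))
    (hunr : ∀ (p : ℕ) [Fact p.Prime] (_ : ¬ p ∣ M), p ≠ ℓ →
      ∀ A : ValuationSubring ds_Qb, A.LiesOverPrime p →
        ∀ σ ∈ A.inertiaSubgroupIn ℚ, ρV σ = 1)
    (hES : ∀ (p : ℕ) [Fact p.Prime] (hpM : ¬ p ∣ M), p ≠ ℓ →
      ∀ A : ValuationSubring ds_Qb, A.LiesOverPrime p →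
        ∀ φ : ds_G, A.IsFrobeniusAt φ p → ∀ v : V,
          Dd (g1t_pU hpM) (ρV φ (ρV φ v)) - Tp p hpM (ρV φ v) + (p : ZMod ℓ) • v = 0)
    (t : ℕ → k) (ψ' : (ZMod M)ˣ →* kˣ)
    (w : k ⊗[ZMod ℓ] V) (hw : w ≠ 0)
    (hwT : ∀ (p : ℕ) [Fact p.Prime] (hpM : ¬ p ∣ M), (Tp p hpM).baseChange k w = t p • w)
    (hwD : ∀ d : (ZMod M)ˣ, (Dd d).baseChange k w = (ψ' d : k) • w)
    (ε : ds_G →* kˣ) (hε : GaloisFactorsThroughFiniteLevel ε)
    (hεf : ∀ (p : ℕ) [Fact p.Prime] (hpM : ¬ p ∣ M), p ≠ ℓ →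
      ∀ A : ValuationSubring ds_Qb, A.LiesOverPrime p →
        (∀ φ : ds_G, A.IsFrobeniusAt φ p →
          (ε φ : k) = (p : k) * (((ψ' (g1t_pU hpM))⁻¹ : kˣ) : k)) ∧
        ∀ σ ∈ A.inertiaSubgroupIn ℚ, ε σ = 1) :
    ∃ r : ds_G →* GL (Fin 2) k, GaloisFactorsThroughFiniteLevel r ∧ ds_Semisimple r ∧
      ∀ (p : ℕ) [Fact p.Prime] (hpM : ¬ p ∣ M), p ≠ ℓ →
        ds_UnramFrob r p (t p * (((ψ' (g1t_pU hpM))⁻¹ : kˣ) : k))
          ((p : k) * (((ψ' (g1t_pU hpM))⁻¹ : kˣ) : k)) := by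
  classical
  haveI : Module.Finite (ZMod ℓ) V := Module.Finite.of_finite
  set E := dst_E Tp Dd t ψ' with hEdef
  have hwE : w ∈ E := ⟨hwT, hwD⟩
  have hE : E ≠ ⊥ := fun h => hw ((Submodule.mem_bot k).mp (h ▸ hwE))
  have hst : ∀ g, E ≤ E.comap (dst_rhoW (k := k) ρV g) := fun g v hv =>
    dst_E_stable ρV Tp Dd hcT hcD t ψ' g hv
  set S : Finset ℕ := (M * ℓ).primeFactors with hS
  have hMℓ : M * ℓ ≠ 0 := Nat.mul_ne_zero (NeZero.ne M) hℓ.out.ne_zero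
  have hnot : ∀ p : ℕ, p.Prime → p ∉ S → ¬ p ∣ M ∧ p ≠ ℓ := by
    intro p hp hpS
    have h1 : ¬ p ∣ M * ℓ := fun hd => hpS (Nat.mem_primeFactors.mpr ⟨hp, hd, hMℓ⟩)
    exact ⟨fun h => h1 (Dvd.dvd.mul_right h ℓ), fun h => h1 (h ▸ Dvd.intro_left M rfl)⟩
  have hnot' : ∀ p : ℕ, p.Prime → ¬ p ∣ M → p ≠ ℓ → p ∉ S := by
    intro p hp hpM hpℓ hpS
    have hd := (Nat.mem_primeFactors.mp hpS).2.1
    rcases (Nat.Prime.dvd_mul hp).mp hd with h | h
    · exact hpM h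
    · exact hpℓ ((Nat.prime_dvd_prime_iff_eq hp hℓ.out).mp h)
  set t' : ℕ → k := fun p => t p * (((ψ' (dst_u M p))⁻¹ : kˣ) : k) with ht'
  set e' : ℕ → k := fun p => (p : k) * (((ψ' (dst_u M p))⁻¹ : kˣ) : k) with he'
  have hfrob : ∀ p : ℕ, p.Prime → p ∉ S → ∀ A : ValuationSubring ds_Qb, A.LiesOverPrime p →
      ∀ φ : ds_G, A.IsFrobeniusAt φ p →
        (ε φ : k) = e' p ∧ ∀ v ∈ E, dst_rhoW (k := k) ρV φ (dst_rhoW (k := k) ρV φ v)
          - t' p • dst_rhoW (k := k) ρV φ v + e' p • v = 0 := by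
    intro p hp hpS A hA φ hφ
    haveI : Fact p.Prime := ⟨hp⟩
    obtain ⟨hpM, hpℓ⟩ := hnot p hp hpS
    have hu : dst_u M p = g1t_pU hpM := dst_u_eq hpM
    refine ⟨?_, fun v hv => ?_⟩
    · rw [he']
      simp only
      rw [hu]
      exact (hεf p hpM hpℓ A hA).1 φ hφ
    · -- the relation as an identity of endomorphisms of `V`, base changed
      have hrel : Dd (g1t_pU hpM) * ρV φ * ρV φ - Tp p hpM * ρV φ
          + (p : ZMod ℓ) • (1 : Module.End (ZMod ℓ) V) = 0 := by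
        apply LinearMap.ext
        intro x
        simpa [Module.End.mul_apply] using hES p hpM hpℓ A hA φ hφ x
      have hrelW := congrArg (Module.End.baseChangeHom (ZMod ℓ) k V) hrel
      rw [map_zero, map_add, map_sub, map_mul, map_mul, map_mul, map_smul, map_one] at hrelW
      have hv1 := hst φ hv
      have hv2 := hst φ hv1
      rw [Submodule.mem_comap] at hv1 hv2
      have hrv := LinearMap.congr_fun hrelW v
      simp only [LinearMap.add_apply, LinearMap.sub_apply, Module.End.mul_apply,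
        LinearMap.smul_apply, Module.End.one_apply, LinearMap.zero_apply, dst_bch] at hrv
      rw [← dst_rhoW_apply (k := k) ρV φ] at hrv
      rw [hv2.2 (g1t_pU hpM), hv1.1 p hpM] at hrv
      set Φv := dst_rhoW (k := k) ρV φ v with hΦv
      set ΦΦv := dst_rhoW (k := k) ρV φ Φv with hΦΦv
      have hp_smul : ((p : ZMod ℓ)) • v = (p : k) • v := by
        rw [Nat.cast_smul_eq_nsmul, Nat.cast_smul_eq_nsmul]
      rw [hp_smul] at hrv
      -- divide by `ψ'(p)`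
      set c : kˣ := ψ' (g1t_pU hpM) with hc
      have hmul := congrArg (fun x => ((c⁻¹ : kˣ) : k) • x) hrv
      simp only [smul_add, smul_sub, smul_zero, smul_smul] at hmul
      rw [Units.inv_mul] at hmul
      rw [one_smul] at hmul
      rw [ht', he']
      simp only
      rw [hu, ← hmul]
      congr 2
      · rw [mul_comm]
      · rw [mul_comm]
  have hunr' : ∀ p : ℕ, p.Prime → p ∉ S → ∀ A : ValuationSubring ds_Qb, A.LiesOverPrime p →
      ∀ σ ∈ A.inertiaSubgroupIn ℚ,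
        (∀ v ∈ E, dst_rhoW (k := k) ρV σ v = v) ∧ ε σ = 1 := by
    intro p hp hpS A hA σ hσ
    haveI : Fact p.Prime := ⟨hp⟩
    obtain ⟨hpM, hpℓ⟩ := hnot p hp hpS
    refine ⟨fun v _ => ?_, (hεf p hpM hpℓ A hA).2 σ hσ⟩
    rw [dst_rhoW_apply, hunr p hpM hpℓ A hA σ hσ, LinearMap.baseChange_one]
    rfl
  obtain ⟨r, hr1, hr2, hr3⟩ := dspk_galois h2 (dst_rhoW (k := k) ρV)
    (dst_rhoW_finiteLevel ρV hρV) ε hε E hE hst S t' e' hfrob hunr'
  refine ⟨r, hr1, hr2, fun p _ hpM hpℓ => ?_⟩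
  have := hr3 p Fact.out (hnot' p Fact.out hpM hpℓ)
  rw [ht', he'] at this
  simp only at this
  rw [dst_u_eq hpM] at this
  exact this

end Main

end Fermat.Agent.DS

end
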