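/-
DS-T, final assembly, piece [T-TOP] (helper25): TRANSPORT OF THE EIGENCLASS THROUGH THE GATEWAY.

`V` = the mod-`ℓ` torsion of `J₁(M)` with its Galois action, Hecke operators `T_p` and diamonds
(`[T-V]`, hypotheses of `dst_abstract`); `V'` = `Hom_par(Γ₁(M), 𝔽_ℓ)` with helper5's operators
`T'_p`, `⟨d⟩'`; `e : V ≃+ V'` the gateway with
`e ∘ T_p = T'_p ∘ ⟨p⟩'⁻¹ ∘ e`, `e ∘ ⟨d⟩ = ⟨d⁻¹⟩' ∘ e` (helper17's `g1x_equiv_hecke/_diamond`).
A nonzero eigenvector `w' ∈ k ⊗ V'` (`T'_p w' = a_p w'`, `⟨d⟩' w' = ψ(d) w'`, helper5's `dst_eig`)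
is transported to `w ∈ k ⊗ V` with `T_p w = a_p ψ(p)⁻¹ w`, `⟨d⟩ w = ψ(d)⁻¹ w`; `dst_abstract` with
`ε` from `dspk_cyc_eps` then gives the representation of `ds_SeamTcoh`:
`tr Frob_p = a_p`, `det Frob_p = ψ(p) p`.

* `dst_top_linearEquiv`, `dst_top_transport` : the linear algebra;
* **`dst_top`** : the abstract top theorem (no modular object);
* `dst_TopData M ℓ`, **`dst_seamTcoh_of`** : `ds_SeamTcoh` from the data for all `(M, ℓ)`.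
-/
import Mathlib
import Fermat.Agent.DS.Tower.Abstract
import Fermat.Agent.DS.Pack.CycloMod
import Fermat.Agent.DS.Seams

set_option autoImplicit false
set_option linter.unusedSectionVars false
set_option linter.style.haveILetI false

noncomputable section

namespace Fermat.Agent.DS

open TensorProduct

section Transport

variable {ℓ : ℕ} {k : Type} [Field k] [Algebra (ZMod ℓ) k]
  {V V' : Type} [AddCommGroup V] [Module (ZMod ℓ) V] [AddCommGroup V'] [Module (ZMod ℓ) V']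

/-- an additive equivalence of `ZMod ℓ`-modules is linear -/
def dst_top_linearEquiv (e : V ≃+ V') : V ≃ₗ[ZMod ℓ] V' :=
  { e with map_smul' := fun c x => ZMod.map_smul e c x }

@[simp] theorem dst_top_linearEquiv_apply (e : V ≃+ V') (v : V) :
    dst_top_linearEquiv (ℓ := ℓ) e v = e v := rfl

@[simp] theorem dst_top_linearEquiv_symm_apply (e : V ≃+ V') (v : V') :
    (dst_top_linearEquiv (ℓ := ℓ) e).symm v = e.symm v := rfl

/-- transport of an eigenvector along `e⁻¹ ⊗ 1` -/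
theorem dst_top_transport (e : V ≃+ V') (T : Module.End (ZMod ℓ) V) (T' : Module.End (ZMod ℓ) V')
    (h : ∀ v, e (T v) = T' (e v)) (w' : k ⊗[ZMod ℓ] V') (c : k)
    (hw' : T'.baseChange k w' = c • w') :
    T.baseChange k (((dst_top_linearEquiv (ℓ := ℓ) e).symm.baseChange (ZMod ℓ) k V' V) w') =
      c • ((dst_top_linearEquiv (ℓ := ℓ) e).symm.baseChange (ZMod ℓ) k V' V) w' := by
  set E := (dst_top_linearEquiv (ℓ := ℓ) e).symm with hE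
  have hcomp : T ∘ₗ E.toLinearMap = E.toLinearMap ∘ₗ T' := by
    ext v
    simp only [LinearMap.comp_apply, LinearEquiv.coe_coe, hE, dst_top_linearEquiv_symm_apply]
    apply e.injective
    rw [h, AddEquiv.apply_symm_apply, AddEquiv.apply_symm_apply]
  have h1 : T.baseChange k ∘ₗ E.toLinearMap.baseChange k =
      E.toLinearMap.baseChange k ∘ₗ T'.baseChange k := by
    rw [← LinearMap.baseChange_comp, ← LinearMap.baseChange_comp, hcomp]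
  have h2 := LinearMap.congr_fun h1 w'
  simp only [LinearMap.comp_apply] at h2
  have e3 : ∀ x, (LinearEquiv.baseChange (ZMod ℓ) k V' V E) x = E.toLinearMap.baseChange k x :=
    fun x => rfl
  rw [e3, h2, hw', map_smul]

end Transport

section Top

variable {ℓ : ℕ} [hℓ : Fact ℓ.Prime] {k : Type} [Field k] [IsAlgClosed k] [CharP k ℓ]
  [Algebra (ZMod ℓ) k] {M : ℕ} [NeZero M]
  {V : Type} [AddCommGroup V] [Module (ZMod ℓ) V] [Finite V]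
  {V' : Type} [AddCommGroup V'] [Module (ZMod ℓ) V']

/-- **[T-TOP], abstract form**: the package `[T-V]` on `V`, an eigenvector in `k ⊗ V'` and a
gateway `e : V ≃+ V'` with `e T_p = T'_p ⟨p⟩'⁻¹ e`, `e ⟨d⟩ = ⟨d⁻¹⟩' e` give the representation of
`ds_SeamTcoh`. -/
theorem dst_top (hℓ2 : ℓ ≠ 2)
    (ρV : ds_G →* Module.End (ZMod ℓ) V) (hρV : GaloisFactorsThroughFiniteLevel ρV)
    (Tp : ∀ (p : ℕ) [Fact p.Prime], ¬ p ∣ M → Module.End (ZMod ℓ) V)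
    (Dd : (ZMod M)ˣ → Module.End (ZMod ℓ) V)
    (hcT : ∀ (p : ℕ) [Fact p.Prime] (hpM : ¬ p ∣ M) (σ : ds_G), Commute (Tp p hpM) (ρV σ))
    (hcD : ∀ (d : (ZMod M)ˣ) (σ : ds_G), Commute (Dd d) (ρV σ))
    (hunr : ∀ (p : ℕ) [Fact p.Prime] (_ : ¬ p ∣ M), p ≠ ℓ →
      ∀ A : ValuationSubring ds_Qb, A.LiesOverPrime p →
        ∀ σ ∈ A.inertiaSubgroupIn ℚ, ρV σ = 1)
    (hES : ∀ (p : ℕ) [Fact p.Prime] (hpM : ¬ p ∣ M), p ≠ ℓ →
      ∀ A : ValuationSubring ds_Qb, A.LiesOverPrime p →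
        ∀ φ : ds_G, A.IsFrobeniusAt φ p → ∀ v : V,
          Dd (g1t_pU hpM) (ρV φ (ρV φ v)) - Tp p hpM (ρV φ v) + (p : ZMod ℓ) • v = 0)
    (T'p : ∀ (p : ℕ) [Fact p.Prime], ¬ p ∣ M → Module.End (ZMod ℓ) V')
    (D'd : (ZMod M)ˣ → Module.End (ZMod ℓ) V')
    (e : V ≃+ V')
    (heT : ∀ (p : ℕ) [Fact p.Prime] (hpM : ¬ p ∣ M) (v : V),
      e (Tp p hpM v) = T'p p hpM (D'd (g1t_pU hpM)⁻¹ (e v)))
    (heD : ∀ (d : (ZMod M)ˣ) (v : V), e (Dd d v) = D'd d⁻¹ (e v))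
    (a : ℕ → k) (ψ : (ZMod M)ˣ →* kˣ) (w' : k ⊗[ZMod ℓ] V') (hw' : w' ≠ 0)
    (hT' : ∀ (p : ℕ) [Fact p.Prime] (hpM : ¬ p ∣ M), (T'p p hpM).baseChange k w' = a p • w')
    (hD' : ∀ d : (ZMod M)ˣ, (D'd d).baseChange k w' = (ψ d : k) • w') :
    ∃ ρ : ds_G →* GL (Fin 2) k, GaloisFactorsThroughFiniteLevel ρ ∧ ds_Semisimple ρ ∧
      ∀ (p : ℕ) [Fact p.Prime] (hpM : ¬ p ∣ M), p ≠ ℓ →
        ds_UnramFrob ρ p (a p) ((ψ (g1t_pU hpM) : k) * (p : k)) := by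
  classical
  -- `2 ≠ 0` in `k`
  have h2 : (2 : k) ≠ 0 := by
    intro h
    have h' : ((2 : ℕ) : k) = 0 := by exact_mod_cast h
    rw [CharP.cast_eq_zero_iff k ℓ] at h'
    exact hℓ2 ((Nat.prime_dvd_prime_iff_eq hℓ.out Nat.prime_two).1 h')
  -- the transported vector
  set EL := ((dst_top_linearEquiv (ℓ := ℓ) e).symm.baseChange (ZMod ℓ) k V' V) with hEL
  set w : k ⊗[ZMod ℓ] V := EL w' with hwdef
  have hw : w ≠ 0 := fun h => hw' (EL.map_eq_zero_iff.1 h)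
  -- the twisted eigenvalues
  set ψ' : (ZMod M)ˣ →* kˣ := ψ⁻¹ with hψ'
  have hψ'app : ∀ d, ψ' d = (ψ d)⁻¹ := fun d => rfl
  set t : ℕ → k := fun p => a p * (((ψ' (dst_u M p)) : kˣ) : k) with ht
  have hwT : ∀ (p : ℕ) [Fact p.Prime] (hpM : ¬ p ∣ M),
      (Tp p hpM).baseChange k w = t p • w := by
    intro p _ hpM
    have h1 : ∀ v, e (Tp p hpM v) = (T'p p hpM * D'd (g1t_pU hpM)⁻¹) (e v) := fun v => heT p hpM v
    have h3 : (T'p p hpM * D'd (g1t_pU hpM)⁻¹).baseChange k w' = t p • w' := by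
      rw [LinearMap.baseChange_mul, Module.End.mul_apply, hD' (g1t_pU hpM)⁻¹, map_smul, hT' p hpM,
        smul_smul]
      congr 1
      rw [ht]
      simp only []
      rw [dst_u_eq hpM, hψ'app, map_inv, mul_comm]
    exact dst_top_transport e (Tp p hpM) _ h1 w' (t p) h3
  have hwD : ∀ d : (ZMod M)ˣ, (Dd d).baseChange k w = ((ψ' d : kˣ) : k) • w := by
    intro d
    have h3 : (D'd d⁻¹).baseChange k w' = ((ψ' d : kˣ) : k) • w' := by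
      rw [hD' d⁻¹, hψ'app, map_inv]
    exact dst_top_transport e (Dd d) _ (heD d) w' _ h3
  -- the determinant character
  obtain ⟨ε, hε, hεf⟩ := dspk_cyc_eps M ℓ k ψ
  have hεf' : ∀ (p : ℕ) [Fact p.Prime] (hpM : ¬ p ∣ M), p ≠ ℓ →
      ∀ A : ValuationSubring ds_Qb, A.LiesOverPrime p →
        (∀ φ : ds_G, A.IsFrobeniusAt φ p →
          (ε φ : k) = (p : k) * (((ψ' (g1t_pU hpM))⁻¹ : kˣ) : k)) ∧
        ∀ σ ∈ A.inertiaSubgroupIn ℚ, ε σ = 1 := by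
    intro p _ hpM hpℓ A hA
    obtain ⟨h1, h3⟩ := hεf p hpM hpℓ A hA
    refine ⟨fun φ hφ => ?_, h3⟩
    rw [h1 φ hφ, hψ'app, inv_inv, mul_comm]
  obtain ⟨r, hr1, hr2, hr3⟩ := dst_abstract h2 ρV hρV Tp Dd hcT hcD hunr hES t ψ' w hw hwT hwD
    ε hε hεf'
  refine ⟨r, hr1, hr2, fun p _ hpM hpℓ => ?_⟩
  have := hr3 p hpM hpℓ
  have e1 : t p * (((ψ' (g1t_pU hpM))⁻¹ : kˣ) : k) = a p := by
    rw [ht]
    simp only []
    rw [dst_u_eq hpM, mul_assoc, ← Units.val_mul, mul_inv_cancel, Units.val_one, mul_one]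
  have e2 : (p : k) * (((ψ' (g1t_pU hpM))⁻¹ : kˣ) : k) = (ψ (g1t_pU hpM) : k) * (p : k) := by
    rw [hψ'app, inv_inv, mul_comm]
  rw [e1, e2] at this
  exact this

end Top

section Seam

open CongruenceSubgroup

/-- **The data of the final assembly at `(M, ℓ)`**: the package `[T-V]` (`V`, `ρV`, `T_p`, `⟨d⟩` with
the hypotheses of `dst_abstract`), the module `V'` with operators `T'_p`, `⟨d⟩'`, the gateway
`e : V ≃+ V'` with its equivariance (`[G1-e]`), and the eigenvector property `[T-EIG]` of `V'`. -/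
def dst_TopData (M : ℕ) [NeZero M] (ℓ : ℕ) [Fact ℓ.Prime] : Prop :=
  ∃ (V : Type) (_ : AddCommGroup V) (_ : Module (ZMod ℓ) V) (_ : Finite V)
    (V' : Type) (_ : AddCommGroup V') (_ : Module (ZMod ℓ) V')
    (ρV : ds_G →* Module.End (ZMod ℓ) V)
    (Tp : ∀ (p : ℕ) [Fact p.Prime], ¬ p ∣ M → Module.End (ZMod ℓ) V)
    (Dd : (ZMod M)ˣ → Module.End (ZMod ℓ) V)
    (T'p : ∀ (p : ℕ) [Fact p.Prime], ¬ p ∣ M → Module.End (ZMod ℓ) V')
    (D'd : (ZMod M)ˣ → Module.End (ZMod ℓ) V')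
    (e : V ≃+ V'),
    GaloisFactorsThroughFiniteLevel ρV ∧
    (∀ (p : ℕ) [Fact p.Prime] (hpM : ¬ p ∣ M) (σ : ds_G), Commute (Tp p hpM) (ρV σ)) ∧
    (∀ (d : (ZMod M)ˣ) (σ : ds_G), Commute (Dd d) (ρV σ)) ∧
    (∀ (p : ℕ) [Fact p.Prime] (_ : ¬ p ∣ M), p ≠ ℓ →
      ∀ A : ValuationSubring ds_Qb, A.LiesOverPrime p →
        ∀ σ ∈ A.inertiaSubgroupIn ℚ, ρV σ = 1) ∧
    (∀ (p : ℕ) [Fact p.Prime] (hpM : ¬ p ∣ M), p ≠ ℓ →
      ∀ A : ValuationSubring ds_Qb, A.LiesOverPrime p →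
        ∀ φ : ds_G, A.IsFrobeniusAt φ p → ∀ v : V,
          Dd (g1t_pU hpM) (ρV φ (ρV φ v)) - Tp p hpM (ρV φ v) + (p : ZMod ℓ) • v = 0) ∧
    (∀ (p : ℕ) [Fact p.Prime] (hpM : ¬ p ∣ M) (v : V),
      e (Tp p hpM v) = T'p p hpM (D'd (g1t_pU hpM)⁻¹ (e v))) ∧
    (∀ (d : (ZMod M)ˣ) (v : V), e (Dd d v) = D'd d⁻¹ (e v)) ∧
    ∀ (k : Type) [Field k] [IsAlgClosed k] [CharP k ℓ] [Algebra (ZMod ℓ) k]
      (c : Additive (Gamma1 M) →+ k), c ≠ 0 → ds_ParTriv c →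
      ∀ (a : ℕ → k) (ψ : (ZMod M)ˣ →* kˣ),
        (∀ (p : ℕ) [Fact p.Prime] (hpM : ¬ p ∣ M), g1t_Tadd hpM c = a p • c) →
        (∀ d : (ZMod M)ˣ, g1t_diamAdd d c = (ψ d : k) • c) →
        ∃ w' : k ⊗[ZMod ℓ] V', w' ≠ 0 ∧
          (∀ (p : ℕ) [Fact p.Prime] (hpM : ¬ p ∣ M), (T'p p hpM).baseChange k w' = a p • w') ∧
          ∀ d : (ZMod M)ˣ, (D'd d).baseChange k w' = (ψ d : k) • w'

/-- **`ds_SeamTcoh` from the assembly data** at every `(M, ℓ)`, `5 ≤ M`, `ℓ ≠ 2`. -/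
theorem dst_seamTcoh_of
    (h : ∀ (M : ℕ) [NeZero M], 5 ≤ M → ∀ (ℓ : ℕ) [Fact ℓ.Prime], ℓ ≠ 2 → dst_TopData M ℓ) :
    ds_SeamTcoh := by
  intro M _ hM ℓ _ hℓ2 k _ _ _ c hc hpar a ψ hT hD
  obtain ⟨V, iV1, iV2, iV3, V', iV'1, iV'2, ρV, Tp, Dd, T'p, D'd, e, hρV, hcT, hcD, hunr, hES,
    heT, heD, heig⟩ := h M hM ℓ hℓ2
  letI : Algebra (ZMod ℓ) k := ZMod.algebra k ℓ
  obtain ⟨w', hw', hT', hD'⟩ := heig k c hc hpar a ψ hT hD
  exact dst_top hℓ2 ρV hρV Tp Dd hcT hcD hunr hES T'p D'd e heT heD a ψ w' hw' hT' hD'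

end Seam

end Fermat.Agent.DS
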