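/-
DS-T, final assembly, piece [T-EIG] (helper1's ruling #1752 (2)): THE EIGENVECTOR ON THE
COHOMOLOGICAL SIDE.

`V' := ↥(g1c_ParTriv M (ZMod ℓ))` (the parabolic-trivial classes `Γ₁(M) → ZMod ℓ`), a finite
`ZMod ℓ`-module (`dst_eig_module`, `dst_eig_finite`), with the `ZMod ℓ`-linear endomorphisms
`dst_eig_T p hpM` (`= g1t_Tadd hpM` restricted) and `dst_eig_D d` (`= g1t_diamAdd d` restricted).

**`dst_eig`**: a nonzero parabolic-trivial eigenclass `c : Γ₁(M) → k` (`k ⊇ 𝔽_ℓ`) with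
`g1t_Tadd hpM c = a p • c`, `g1t_diamAdd d c = ψ d • c` gives `w ≠ 0` in `k ⊗[ZMod ℓ] V'` with
`(dst_eig_T p hpM).baseChange k w = a p • w` and `(dst_eig_D d).baseChange k w = ψ d • w`.
Prefix `dst_eig_`.
-/
import Mathlib
import Fermat.Agent.DS.Gam1.Gen.CharDict
import Fermat.Agent.DS.HeckeG1.EigenBC
import Fermat.Agent.DS.HeckeG1.ES2
import Fermat.Agent.DS.HeckeG1.Ab

set_option autoImplicit false
set_option linter.unusedSectionVars false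

noncomputable section

open CongruenceSubgroup TensorProduct
open scoped MatrixGroups

namespace Fermat.Agent.DS

variable {M : ℕ} {ℓ : ℕ}

/-- the `ZMod ℓ`-module structure on the parabolic-trivial classes `Γ₁(M) → ZMod ℓ` -/
instance dst_eig_module [NeZero ℓ] : Module (ZMod ℓ) ↥(g1c_ParTriv M (ZMod ℓ)) :=
  AddCommGroup.zmodModule (fun x => by
    apply Subtype.ext
    refine AddMonoidHom.ext fun γ => ?_
    rw [AddSubgroup.coe_nsmul, AddMonoidHom.coe_smul, Pi.smul_apply, AddSubgroup.coe_zero,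
      AddMonoidHom.zero_apply, nsmul_eq_mul, ZMod.natCast_self, zero_mul])

/-- the inclusion `V' → Hom(Γ₁(M), ZMod ℓ)` -/
def dst_eig_incl (M ℓ : ℕ) [NeZero ℓ] :
    ↥(g1c_ParTriv M (ZMod ℓ)) →ₗ[ZMod ℓ] (Additive ↥(Gamma1 M) →+ ZMod ℓ) :=
  (g1c_ParTriv M (ZMod ℓ)).subtype.toZModLinearMap ℓ

/-- a class on a finitely generated group with values in a finite group: finitely many -/
theorem dst_eig_finite_hom {G : Type*} [Group G] [Group.FG G] (B : Type*) [AddCommGroup B]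
    [Finite B] : Finite (Additive G →+ B) := by
  obtain ⟨T, hT⟩ := Group.fg_def.1 (inferInstance : Group.FG G)
  refine Finite.of_injective
    (fun φ : Additive G →+ B => fun t : T => φ (Additive.ofMul (t : G))) ?_
  intro φ φ' h
  apply AddMonoidHom.toMultiplicativeRight.injective
  refine MonoidHom.eq_of_eqOn_dense hT ?_
  intro t ht
  exact congrArg Multiplicative.ofAdd (congrFun h ⟨t, ht⟩)

variable [NeZero M]

instance dst_eig_finite [NeZero ℓ] : Finite ↥(g1c_ParTriv M (ZMod ℓ)) := by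
  have : Group.FG ↥(Gamma1 M) := g1h_fg_Gamma1 M
  have : Finite (Additive ↥(Gamma1 M) →+ ZMod ℓ) := dst_eig_finite_hom (ZMod ℓ)
  exact Finite.of_injective (fun x => (x : Additive ↥(Gamma1 M) →+ ZMod ℓ))
    Subtype.coe_injective

/-- `T_p` on `V'` -/
def dst_eig_T [NeZero ℓ] (p : ℕ) [Fact p.Prime] (hpM : ¬ p ∣ M) :
    Module.End (ZMod ℓ) ↥(g1c_ParTriv M (ZMod ℓ)) :=
  (((g1t_Tadd hpM).comp (g1c_ParTriv M (ZMod ℓ)).subtype).codRestrict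
    (g1c_ParTriv M (ZMod ℓ)) (fun x => g1t_Tadd_parTriv hpM x.2)).toZModLinearMap ℓ

/-- `⟨d⟩` on `V'` -/
def dst_eig_D [NeZero ℓ] (d : (ZMod M)ˣ) : Module.End (ZMod ℓ) ↥(g1c_ParTriv M (ZMod ℓ)) :=
  (((g1t_diamAdd d).comp (g1c_ParTriv M (ZMod ℓ)).subtype).codRestrict
    (g1c_ParTriv M (ZMod ℓ)) (fun x => g1t_diamAdd_parTriv d x.2)).toZModLinearMap ℓ

@[simp] theorem dst_eig_T_coe [NeZero ℓ] (p : ℕ) [Fact p.Prime] (hpM : ¬ p ∣ M)
    (x : ↥(g1c_ParTriv M (ZMod ℓ))) :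
    ((dst_eig_T p hpM x : ↥(g1c_ParTriv M (ZMod ℓ))) : Additive ↥(Gamma1 M) →+ ZMod ℓ) =
      g1t_Tadd hpM (x : Additive ↥(Gamma1 M) →+ ZMod ℓ) := rfl

@[simp] theorem dst_eig_D_coe [NeZero ℓ] (d : (ZMod M)ˣ) (x : ↥(g1c_ParTriv M (ZMod ℓ))) :
    ((dst_eig_D d x : ↥(g1c_ParTriv M (ZMod ℓ))) : Additive ↥(Gamma1 M) →+ ZMod ℓ) =
      g1t_diamAdd d (x : Additive ↥(Gamma1 M) →+ ZMod ℓ) := rfl

section nat

variable [Fact ℓ.Prime] {k : Type*} [Field k] [Algebra (ZMod ℓ) k] {p : ℕ} [Fact p.Prime]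

theorem dst_eig_smul_eq_comp (x : k) (ψ : Additive ↥(Gamma1 M) →+ k) :
    x • ψ = (AddMonoidHom.mulLeft x).comp ψ := rfl

theorem dst_eig_Tadd_nat (hpM : ¬ p ∣ M) (x : k) (φ : Additive ↥(Gamma1 M) →+ ZMod ℓ) :
    g1t_Tadd hpM (x • (g1bc_iota (ZMod ℓ) k).comp φ) =
      x • (g1bc_iota (ZMod ℓ) k).comp (g1t_Tadd hpM φ) := by
  rw [dst_eig_smul_eq_comp, g1t_Tadd_comp, g1t_Tadd_comp, ← dst_eig_smul_eq_comp]

theorem dst_eig_diamAdd_nat (d : (ZMod M)ˣ) (x : k) (φ : Additive ↥(Gamma1 M) →+ ZMod ℓ) :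
    g1t_diamAdd d (x • (g1bc_iota (ZMod ℓ) k).comp φ) =
      x • (g1bc_iota (ZMod ℓ) k).comp (g1t_diamAdd d φ) := rfl

end nat

/-- **[T-EIG]**: the eigenclass `c` as a nonzero simultaneous eigenvector of `k ⊗[ZMod ℓ] V'` -/
theorem dst_eig [Fact ℓ.Prime] (k : Type*) [Field k] [Algebra (ZMod ℓ) k]
    (c : Additive ↥(Gamma1 M) →+ k) (hc : c ≠ 0) (hpar : ds_ParTriv c)
    (a : ℕ → k) (ψ : (ZMod M)ˣ →* kˣ)
    (hT : ∀ (p : ℕ) [Fact p.Prime] (hpM : ¬ p ∣ M), g1t_Tadd hpM c = a p • c)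
    (hD : ∀ d : (ZMod M)ˣ, g1t_diamAdd d c = (ψ d : k) • c) :
    ∃ w : k ⊗[ZMod ℓ] ↥(g1c_ParTriv M (ZMod ℓ)), w ≠ 0 ∧
      (∀ (p : ℕ) [Fact p.Prime] (hpM : ¬ p ∣ M),
        (dst_eig_T p hpM).baseChange k w = a p • w) ∧
      ∀ d : (ZMod M)ˣ, (dst_eig_D d).baseChange k w = (ψ d : k) • w := by
  have : Group.FG ↥(Gamma1 M) := g1h_fg_Gamma1 M
  let I : Type := {p : ℕ // p.Prime ∧ ¬ p ∣ M}
  let TVι : I ⊕ (ZMod M)ˣ → Module.End (ZMod ℓ) ↥(g1c_ParTriv M (ZMod ℓ)) := fun i =>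
    match i with
    | Sum.inl q => haveI : Fact (q : ℕ).Prime := ⟨q.2.1⟩; dst_eig_T (q : ℕ) q.2.2
    | Sum.inr d => dst_eig_D d
  let τF : I ⊕ (ZMod M)ˣ → (Additive ↥(Gamma1 M) →+ ZMod ℓ) →
      (Additive ↥(Gamma1 M) →+ ZMod ℓ) := fun i =>
    match i with
    | Sum.inl q => haveI : Fact (q : ℕ).Prime := ⟨q.2.1⟩; fun φ => g1t_Tadd q.2.2 φ
    | Sum.inr d => fun φ => g1t_diamAdd d φ
  let τk : I ⊕ (ZMod M)ˣ → (Additive ↥(Gamma1 M) →+ k) →+ (Additive ↥(Gamma1 M) →+ k) :=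
    fun i =>
    match i with
    | Sum.inl q => haveI : Fact (q : ℕ).Prime := ⟨q.2.1⟩; g1t_Tadd q.2.2
    | Sum.inr d => g1t_diamAdd d
  let aι : I ⊕ (ZMod M)ˣ → k := fun i =>
    match i with
    | Sum.inl q => a q
    | Sum.inr d => (ψ d : k)
  obtain ⟨w, hw0, hw⟩ := g1bc_exists_eigen (F := ZMod ℓ) (k := k) (dst_eig_incl M ℓ)
    (fun x y h => Subtype.ext h)
    {γ : ↥(Gamma1 M) | ((γ : SL(2, ℤ)) : Matrix (Fin 2) (Fin 2) ℤ).trace = 2}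
    (fun φ hφ => ⟨⟨φ, hφ⟩, rfl⟩) TVι τF τk
    (by
      rintro (q | d) v
      · rfl
      · rfl)
    (by
      rintro (q | d) x φ
      · have : Fact (q : ℕ).Prime := ⟨q.2.1⟩
        exact dst_eig_Tadd_nat q.2.2 x φ
      · exact dst_eig_diamAdd_nat d x φ)
    c hc hpar aι
    (by
      rintro (q | d)
      · have : Fact (q : ℕ).Prime := ⟨q.2.1⟩
        exact hT q q.2.2
      · exact hD d)
  refine ⟨w, hw0, fun p _ hpM => ?_, fun d => hw (Sum.inr d)⟩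
  exact hw (Sum.inl ⟨p, Fact.out, hpM⟩)

end Fermat.Agent.DS
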