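/-
DS-T, final assembly, piece [T-V]: THE `𝔽_ℓ[Γℚ]`-MODULE `V = J₁(M)[ℓ]` WITH ITS HECKE AND DIAMOND
OPERATORS, and the hypotheses of `dst_abstract` for it.

`F̄ = g1i_F Q̄ M M` (`= g1f_Fbar M M`), `V = Pic0.torsion Q̄ F̄ ℓ`.

* generic: `dsh_riemann_of_sepGen` (the Riemann package from a separating generator),
  `dst_torsionEnd` (an additive endomorphism of `Pic⁰` restricted to the `n`-torsion);
* `dst_riemann` : `est_Riemann Q̄ F̄` ; `dst_exists_fixing` : smoothness of the Galois action ;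
  `dst_finite` : `V` is finite ;
* `dst_rhoV`, `dst_Tp`, `dst_Dd` : Galois, `T_p`, `⟨d⟩` on `V`; `dst_rhoV_finiteLevel`,
  `dst_commute_T`, `dst_commute_D` ;
* `dst_GoodAt` : the good-reduction seams at a place `A | p`, `p ∤ M ℓ` ;
  `dst_unram`, `dst_ES` : the hypotheses `hunr`, `hES` of `dst_abstract` from `dst_GoodAt`.
-/
import Mathlib
import Fermat.Agent.DS.Defs
import Fermat.Agent.DS.Hecke.TorsionC
import Fermat.Agent.DS.Hecke.Gam1Tower
import Fermat.Agent.DS.Gam1.Diamonds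
import Fermat.Agent.DS.Gam1.InstSurj
import Fermat.Agent.DS.HeckeG1.Coset
import Fermat.Agent.JT3.ES.Smooth
import Fermat.Agent.JT3.Places.CharFree
import Fermat.Agent.DS.Gam1.GroupFacts
import Fermat.Agent.DS.Gam1.Gen.Finite

set_option autoImplicit false
set_option synthInstance.maxHeartbeats 400000
set_option maxHeartbeats 1000000
set_option linter.style.haveILetI false
set_option linter.unusedSectionVars false

noncomputable section

namespace Fermat.Agent.DS

open ModularCurve AlgebraicCurve HahnSeries IntermediateField Fermat.Agent.JT3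
open Fermat.Agent.S24 Fermat.Agent.S24.Br

/-! ### generic lemmas -/

section Generic

variable {K F : Type*} [Field K] [Field F] [Algebra K F]

/-- **the Riemann package from a separating generator** over an algebraically closed field -/
theorem dsh_riemann_of_sepGen [IsAlgClosed K] {x : F} (hx : rt_IsSepGen K x) :
    est_Riemann K F := by
  have : FiniteDimensional K⟮x⟯ F := hx.2.1
  have : Algebra.IsSeparable K⟮x⟯ F := hx.2.2
  refine ⟨fun v => rt_deg_eq_one hx v, ?_, ?_, ?_⟩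
  · obtain ⟨v, _⟩ := pcf_exists_pole (K := K) (F := F) hx.1
    exact ⟨v⟩
  · intro f hf
    exact (rt_hasPrincipalDivisors hx).exists_divisor f hf
  · obtain ⟨g, hg⟩ := rt_exists_effective hx
    refine ⟨g, fun E hE => ?_⟩
    obtain ⟨D, hD0, _, f, hf, hDf⟩ := hg E (le_of_eq hE.symm)
    refine ⟨f, hf, fun v => ?_⟩
    have h1 := hDf v
    have h2 : (0 : ℤ) ≤ D v := Finsupp.le_def.mp hD0 v
    rw [Finsupp.sub_apply] at h1
    rw [← h1]
    linarith

/-- an additive endomorphism of `Pic⁰` preserves the `n`-torsion -/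
theorem dst_map_mem_torsion (n : ℕ) (f : Pic0 K F →+ Pic0 K F) {x : Pic0 K F}
    (hx : x ∈ Pic0.torsion K F n) : f x ∈ Pic0.torsion K F n := by
  rw [Pic0.mem_torsion] at hx ⊢
  rw [← map_zsmul, hx, map_zero]

/-- an additive endomorphism of `Pic⁰`, restricted to the `n`-torsion, as a `ZMod n`-linear map -/
def dst_torsionEnd (n : ℕ) (f : Pic0 K F →+ Pic0 K F) :
    Module.End (ZMod n) (Pic0.torsion K F n) :=
  AddMonoidHom.toZModLinearMap n
    ((f.comp (Pic0.torsion K F n).subtype).codRestrict (Pic0.torsion K F n)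
      (fun x => dst_map_mem_torsion n f x.2))

@[simp]
theorem dst_coe_torsionEnd (n : ℕ) (f : Pic0 K F →+ Pic0 K F) (x : Pic0.torsion K F n) :
    ((dst_torsionEnd n f x : Pic0.torsion K F n) : Pic0 K F) = f (x : Pic0 K F) := rfl

end Generic

/-! ### the field `F̄₁(M)` -/

section Field

local notation "Qb" => AlgebraicClosure ℚ

variable {M : ℕ} [NeZero M] (hM : M ≠ 1)

include hM in
/-- the Riemann package of `Q̄(X₁(M))` -/
theorem dst_riemann : est_Riemann Qb (g1i_F Qb M M) :=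
  dsh_riemann_of_sepGen (g1dd_isSepGen Qb hM (dvd_refl M))

include hM in
/-- **smoothness**: every point of `J₁(M)(Q̄)` is fixed by `Gal(Q̄/L)` for a finite `L/ℚ` -/
theorem dst_exists_fixing (x : Pic0 Qb (g1i_F Qb M M)) :
    ∃ L : IntermediateField ℚ Qb, FiniteDimensional ℚ L ∧
      ∀ σ : Qb ≃ₐ[ℚ] Qb, (∀ y ∈ L, σ y = y) → σ • x = x := by
  rw [← egs_eventually_iff (p := fun σ => σ • x = x)]
  have hF : rp_FunField Qb (g1i_F Qb M M) :=
    rpf_funField (g1dd_isSepGen Qb hM (dvd_refl M))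
  exact egs_pic0 (arithmeticGalois (g1f_F M M)) egs_filter
    (fun P => egs_place _ _ hF (egs_function (g1f_F M M))
      (g1dd_jF_transcendental Qb (M := M) (N := M)) P) x

end Field

/-! ### the module `V = J₁(M)[ℓ]` and its operators -/

section Module

local notation "Qb" => AlgebraicClosure ℚ

variable (M : ℕ) [NeZero M] (ℓ : ℕ)

/-- `V = J₁(M)[ℓ]` -/
abbrev dst_V : Type := Pic0.torsion Qb (g1i_F Qb M M) ℓ

/-- the Galois action on `V` -/
def dst_rhoV : ds_G →* Module.End (ZMod ℓ) (dst_V M ℓ) :=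
  (SemilinearAut.torsionRep Qb (g1i_F Qb M M) ℓ).comp (arithmeticGalois (g1f_F M M))

theorem dst_coe_rhoV (σ : ds_G) (x : dst_V M ℓ) :
    ((dst_rhoV M ℓ σ x : dst_V M ℓ) : Pic0 Qb (g1i_F Qb M M)) = σ • (x : Pic0 Qb (g1i_F Qb M M)) :=
  rfl

/-- the Hecke operator `T_p` on `V` -/
def dst_Tp (p : ℕ) [NeZero p] : Module.End (ZMod ℓ) (dst_V M ℓ) :=
  dst_torsionEnd ℓ (dsh_hecke Qb (dsh_towerOne M p))

theorem dst_coe_Tp (p : ℕ) [NeZero p] (x : dst_V M ℓ) :
    ((dst_Tp M ℓ p x : dst_V M ℓ) : Pic0 Qb (g1i_F Qb M M))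
      = dsh_hecke Qb (dsh_towerOne M p) (x : Pic0 Qb (g1i_F Qb M M)) := rfl

variable {M} in
/-- the diamond operator `⟨d⟩` on `V` -/
def dst_Dd (hM : M ≠ 1) (d : (ZMod M)ˣ) : Module.End (ZMod ℓ) (dst_V M ℓ) :=
  SemilinearAut.torsionRep Qb (g1i_F Qb M M) ℓ
    (SemilinearAut.ofAlgAut (g1dm_F Qb hM (dvd_refl M) d))

variable {M} in
theorem dst_coe_Dd (hM : M ≠ 1) (d : (ZMod M)ˣ) (x : dst_V M ℓ) :
    ((dst_Dd ℓ hM d x : dst_V M ℓ) : Pic0 Qb (g1i_F Qb M M))
      = SemilinearAut.ofAlgAut (g1dm_F Qb hM (dvd_refl M) d) • (x : Pic0 Qb (g1i_F Qb M M)) :=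
  rfl

variable {M ℓ}

/-- `V` is finite -/
theorem dst_finite (hM : M ≠ 1) (hℓ : ℓ ≠ 0) : Finite (dst_V M ℓ) := by
  have h1 := g1g_finite_char (g1f_G M M) hℓ
  have h2 : Finite (g1g_X (g1f_G M M) ℓ) :=
    Finite.of_injective
      (fun χ : g1g_X (g1f_G M M) ℓ => (⟨χ.1, χ.2.1⟩ : {χ : ↥(g1f_G M M) →* ℂˣ // χ ^ ℓ = 1}))
      (fun a b h => Subtype.ext (Subtype.mk.inj h))
  have h3 : Finite (Additive (g1g_X (g1f_G M M) ℓ)) := h2
  exact Finite.of_injective (g1x_picEquiv hM (dvd_refl M) hℓ)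
    (g1x_picEquiv hM (dvd_refl M) hℓ).injective

/-- the Galois action on `V` has finite level -/
theorem dst_rhoV_finiteLevel (hM : M ≠ 1) (hℓ : ℓ ≠ 0) :
    GaloisFactorsThroughFiniteLevel (dst_rhoV M ℓ) := by
  haveI := dst_finite hM hℓ
  have h : ∀ x : dst_V M ℓ, ∃ L : IntermediateField ℚ Qb, FiniteDimensional ℚ L ∧
      ∀ σ : Qb ≃ₐ[ℚ] Qb, (∀ y ∈ L, σ y = y) → σ • (x : Pic0 Qb (g1i_F Qb M M)) = x :=
    fun x => dst_exists_fixing hM x.1
  choose L hL hfix using h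
  refine ⟨⨆ x, L x, ?_, fun σ hσ => ?_⟩
  · haveI := hL
    exact IntermediateField.finiteDimensional_iSup_of_finite
  · apply LinearMap.ext
    intro x
    apply Subtype.ext
    rw [dst_coe_rhoV]
    exact hfix x σ (fun y hy => hσ y ((le_iSup L x : L x ≤ ⨆ x, L x) hy))

/-- Galois commutes with `T_p` -/
theorem dst_commute_T (hM : M ≠ 1) (p : ℕ) [NeZero p] (σ : ds_G) :
    Commute (dst_Tp M ℓ p) (dst_rhoV M ℓ σ) := by
  apply LinearMap.ext
  intro x
  apply Subtype.ext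
  show dsh_hecke Qb (dsh_towerOne M p) (σ • (x : Pic0 Qb (g1i_F Qb M M)))
    = σ • dsh_hecke Qb (dsh_towerOne M p) (x : Pic0 Qb (g1i_F Qb M M))
  exact (dsh_hecke_smul (dsh_towerOne M p)
    (fun v => ne_of_eq_of_ne ((dst_riemann hM).deg_one v) one_ne_zero) σ _).symm

/-- Galois commutes with the diamonds -/
theorem dst_commute_D (hM : M ≠ 1) (d : (ZMod M)ˣ) (σ : ds_G) :
    Commute (dst_Dd ℓ hM d) (dst_rhoV M ℓ σ) := by
  apply LinearMap.ext
  intro x
  apply Subtype.ext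
  show SemilinearAut.ofAlgAut (g1dm_F Qb hM (dvd_refl M) d) • (σ • (x : Pic0 Qb (g1i_F Qb M M)))
    = σ • (SemilinearAut.ofAlgAut (g1dm_F Qb hM (dvd_refl M) d) • (x : Pic0 Qb (g1i_F Qb M M)))
  exact (dsh_smul_comm_of_field (g1f_F M M) (g1dm_F Qb hM (dvd_refl M) d) σ
    (fun y => g1dm_F_galois Qb hM (dvd_refl M) d σ y) _).symm

end Module

/-! ### the reduced field is stable under coefficientwise endomorphisms -/

section Stable

variable (k : Type*) [Field k] (M N : ℕ)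

/-- `g1f_FC k M N` is stable under the coefficientwise ring endomorphisms of `k` -/
theorem dst_coeffStable : dsh_CoeffStable (g1f_FC k M N) := by
  refine dsh_coeffStable_adjoin _ ?_
  rintro φ x (⟨d, hne, -, rfl⟩ | ⟨e, hne, a, -, rfl⟩)
  · haveI := hne
    rw [dsh_coeffMap_qExpand, coeffMap_jqModC]
  · haveI := hne
    rw [dsh_coeffMap_qExpand, g1w_coeffMap_w]

end Stable

/-! ### the good-reduction seams at a place and their consequences on `V` -/

section Good

local notation "Qb" => AlgebraicClosure ℚ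

variable {M : ℕ} [NeZero M] (ℓ : ℕ) (hM : M ≠ 1) {p : ℕ} [NeZero p] [hp : Fact p.Prime]
  (hpM : ¬ p ∣ M) (A : ValuationSubring Qb)

local notation "kA" => IsLocalRing.ResidueField A

/-- **the good-reduction seams at a place `A` of residue characteristic `p ∤ M`** (and `p ≠ ℓ` for
`inj`): node-E twin (`red`), S18 twin on `ℓ`-torsion (`inj`), the correspondence inputs (`hecke`),
and a generating class of `q`-integral functions on which the diamond `⟨p⟩` reduces to an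
automorphism `δt` of the reduced field and Kronecker's congruence `[NL1]` holds (`diamond`). -/
structure dst_GoodAt [CharP kA p] : Prop where
  red : dsr_ReductionInputs A (IsLocalRing.residue A) (g1i_F Qb M M) (g1f_FC kA M M)
  inj : ∀ z : Pic0 Qb (g1i_F Qb M M), ℓ • z = 0 →
    dsr_reduction A (IsLocalRing.residue A) (g1i_F Qb M M) (g1f_FC kA M M) z = 0 → z = 0
  hecke : dsh_HeckeInputs Qb (dsh_towerOne M p)
  diamond : ∃ (𝒞 : Set (dsr_IntFun A (IsLocalRing.residue A) (g1i_F Qb M M) (g1f_FC kA M M)))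
      (δt : g1f_FC kA M M ≃ₐ[kA] g1f_FC kA M M),
    dsh_ClassGenerates 𝒞 ∧
    (∀ y ∈ 𝒞, ∃ z : dsr_IntFun A (IsLocalRing.residue A) (g1i_F Qb M M) (g1f_FC kA M M),
      dsr_gen z = g1dm_F Qb hM (dvd_refl M) (g1t_pU hpM) (dsr_gen y) ∧
      dsr_red z = δt (dsr_red y)) ∧
    dsh_NLC A (IsLocalRing.residue A) (dsh_towerOne M p) (g1f_FC kA M M) 𝒞 δt

variable {ℓ hM hpM A}

/-- inertia at a good place acts trivially on `V` -/
theorem dst_unram [CharP kA p] (hG : dst_GoodAt ℓ hM hpM A) (σ : ds_G)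
    (hσ : σ ∈ A.inertiaSubgroupIn ℚ) : dst_rhoV M ℓ σ = 1 := by
  apply LinearMap.ext
  intro x
  apply Subtype.ext
  rw [dst_coe_rhoV]
  have hx : ℓ • (x : Pic0 Qb (g1i_F Qb M M)) = 0 := by
    have := Pic0.mem_torsion.mp x.2
    rwa [natCast_zsmul] at this
  exact dsh_unramified (dst_coeffStable kA M M) hG.red (dst_riemann hM) ℓ hG.inj σ hσ _ hx

/-- **the Eichler–Shimura relation with diamond on `V`** at a good place -/
theorem dst_ES [CharP kA p] (hG : dst_GoodAt ℓ hM hpM A) (φ : ds_G)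
    (hφ : A.IsFrobeniusAt φ p) (v : dst_V M ℓ) :
    dst_Dd ℓ hM (g1t_pU hpM) (dst_rhoV M ℓ φ (dst_rhoV M ℓ φ v)) - dst_Tp M ℓ p (dst_rhoV M ℓ φ v)
      + (p : ZMod ℓ) • v = 0 := by
  obtain ⟨𝒞, δt, h𝒞, hδ, hNL⟩ := hG.diamond
  apply Subtype.ext
  have hx : ℓ • (v : Pic0 Qb (g1i_F Qb M M)) = 0 := by
    have := Pic0.mem_torsion.mp v.2
    rwa [natCast_zsmul] at this
  have key := dsh_frobQuadraticC' (T := dsh_towerOne M p) (dst_coeffStable kA M M) hG.red
    (dst_riemann hM) 𝒞 h𝒞 (g1dm_F Qb hM (dvd_refl M) (g1t_pU hpM)) δt hδ hNL hG.hecke ℓ hG.inj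
    φ hφ (fun y => g1dm_F_galois Qb hM (dvd_refl M) (g1t_pU hpM) φ y) _ hx
  have hsm : (((p : ZMod ℓ) • v : dst_V M ℓ) : Pic0 Qb (g1i_F Qb M M))
      = p • (v : Pic0 Qb (g1i_F Qb M M)) := by
    rw [Nat.cast_smul_eq_nsmul]
    rfl
  rw [AddSubgroup.coe_add, AddSubgroup.coe_sub, hsm]
  exact key

end Good

end Fermat.Agent.DS

end
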