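/-
DS-T, final assembly: `dst_abstract` APPLIED TO `V = J₁(M)[ℓ]`.

`dst_Good M ℓ hM` : the good-reduction seams `dst_GoodAt` at every place over every prime `p ∤ M ℓ`.
`dst_main_of_eigen` : under `dst_Good`, a nonzero simultaneous eigenvector of the function-field
operators `T_p`, `⟨d⟩` in `k ⊗ J₁(M)[ℓ]` (eigenvalues `t p`, `ψ' d`) and a character `ε` with
`ε(Frob_p) = p ψ'(p)⁻¹` give a semisimple `r : Γℚ → GL₂(k)` of finite level, unramified outside `M ℓ`,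
with `tr r(Frob_p) = t p · ψ'(p)⁻¹`, `det r(Frob_p) = p · ψ'(p)⁻¹`.
-/
import Mathlib
import Fermat.Agent.DS.Tower.Abstract
import Fermat.Agent.DS.Tower.TorsionV

set_option autoImplicit false
set_option synthInstance.maxHeartbeats 400000
set_option maxHeartbeats 1000000
set_option linter.style.haveILetI false
set_option linter.unusedSectionVars false

noncomputable section

namespace Fermat.Agent.DS

open ModularCurve AlgebraicCurve HahnSeries Fermat.Agent.JT3 TensorProduct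
open Fermat.Agent.S24 Fermat.Agent.S24.Br

local notation "Qb" => AlgebraicClosure ℚ

/-- **the good-reduction seams of `X₁(M)` at all primes `p ∤ M ℓ`** -/
def dst_Good (M : ℕ) [NeZero M] (ℓ : ℕ) (hM : M ≠ 1) : Prop :=
  ∀ (p : ℕ) (hp : p.Prime) (hpM : ¬ p ∣ M), p ≠ ℓ →
    ∀ (A : ValuationSubring Qb) (hA : A.LiesOverPrime p),
      @dst_GoodAt M _ ℓ hM p ⟨hp.ne_zero⟩ ⟨hp⟩ hpM A (ese_charP hp hA)

/-- **`dst_abstract` for `V = J₁(M)[ℓ]`.** -/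
theorem dst_main_of_eigen {ℓ : ℕ} [hℓ : Fact ℓ.Prime] {k : Type} [Field k] [IsAlgClosed k]
    [Algebra (ZMod ℓ) k] (h2 : (2 : k) ≠ 0) {M : ℕ} [NeZero M] (hM : M ≠ 1)
    (hGood : dst_Good M ℓ hM)
    (t : ℕ → k) (ψ' : (ZMod M)ˣ →* kˣ)
    (w : k ⊗[ZMod ℓ] dst_V M ℓ) (hw : w ≠ 0)
    (hwT : ∀ (p : ℕ) [hp : Fact p.Prime] (_ : ¬ p ∣ M),
      (@dst_Tp M ℓ p ⟨hp.out.ne_zero⟩).baseChange k w = t p • w)
    (hwD : ∀ d : (ZMod M)ˣ, (dst_Dd ℓ hM d).baseChange k w = (ψ' d : k) • w)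
    (ε : ds_G →* kˣ) (hε : GaloisFactorsThroughFiniteLevel ε)
    (hεf : ∀ (p : ℕ) [Fact p.Prime] (hpM : ¬ p ∣ M), p ≠ ℓ →
      ∀ A : ValuationSubring ds_Qb, A.LiesOverPrime p →
        (∀ φ : ds_G, A.IsFrobeniusAt φ p →
          (ε φ : k) = (p : k) * (((ψ' (g1t_pU hpM))⁻¹ : kˣ) : k)) ∧
        ∀ σ ∈ A.inertiaSubgroupIn ℚ, ε σ = 1) :
    ∃ r : ds_G →* GL (Fin 2) k, GaloisFactorsThroughFiniteLevel r ∧ ds_Semisimple r ∧
      ∀ (p : ℕ) [Fact p.Prime] (hpM : ¬ p ∣ M), p ≠ ℓ →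
        ds_UnramFrob r p (t p * (((ψ' (g1t_pU hpM))⁻¹ : kˣ) : k))
          ((p : k) * (((ψ' (g1t_pU hpM))⁻¹ : kˣ) : k)) := by
  haveI : Finite (dst_V M ℓ) := dst_finite hM hℓ.out.ne_zero
  refine dst_abstract (V := dst_V M ℓ) h2 (dst_rhoV M ℓ)
    (dst_rhoV_finiteLevel hM hℓ.out.ne_zero)
    (fun p hp _ => @dst_Tp M ℓ p ⟨hp.out.ne_zero⟩) (dst_Dd ℓ hM)
    (fun p hp _ σ => @dst_commute_T M _ ℓ hM p ⟨hp.out.ne_zero⟩ σ)
    (fun d σ => dst_commute_D hM d σ)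
    ?_ ?_ t ψ' w hw hwT hwD ε hε hεf
  · intro p hp hpM hpℓ A hA σ hσ
    haveI : NeZero p := ⟨hp.out.ne_zero⟩
    haveI := ese_charP hp.out hA
    exact dst_unram (hGood p hp.out hpM hpℓ A hA) σ hσ
  · intro p hp hpM hpℓ A hA φ hφ v
    haveI : NeZero p := ⟨hp.out.ne_zero⟩
    haveI := ese_charP hp.out hA
    exact dst_ES (hGood p hp.out hpM hpℓ A hA) φ hφ v

end Fermat.Agent.DS

end
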