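/-
DS-T, final assembly (helper25): `ds_SeamTcoh` FROM THE GOOD-REDUCTION SEAMS AND THE GATEWAY.

`dst_Gate M ℓ hM` : the Hecke-equivariant gateway `e : J₁(M)[ℓ] ≃+ Hom_par(Γ₁(M), 𝔽_ℓ)`
(`[G1-e]`, in the vocabulary of `[T-V]` (`dst_V`, `dst_Tp`, `dst_Dd`) and `[T-EIG]`
(`dst_eig_T`, `dst_eig_D`)).
`dst_topData_of` : `dst_Good` + `dst_Gate` give the assembly data `dst_TopData M ℓ`.
`dst_seamTcoh_of_good_gate` : `ds_SeamTcoh` from `dst_Good` and `dst_Gate` at all `(M, ℓ)`.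
-/
import Mathlib
import Fermat.Agent.DS.Tower.Assembly
import Fermat.Agent.DS.Tower.TorsionMain
import Fermat.Agent.DS.Tower.Eigen

set_option autoImplicit false
set_option synthInstance.maxHeartbeats 400000
set_option maxHeartbeats 1000000
set_option linter.style.haveILetI false
set_option linter.unusedSectionVars false

noncomputable section

namespace Fermat.Agent.DS

open ModularCurve AlgebraicCurve Fermat.Agent.JT3 TensorProduct CongruenceSubgroup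

local notation "Qb" => AlgebraicClosure ℚ

/-- **the Hecke-equivariant gateway at `(M, ℓ)`** (`[G1-e]`): `e : J₁(M)[ℓ] ≃+ Hom_par(Γ₁(M), 𝔽_ℓ)`
with `e ∘ T_p = T'_p ∘ ⟨p⟩'⁻¹ ∘ e` and `e ∘ ⟨d⟩ = ⟨d⁻¹⟩' ∘ e`. -/
def dst_Gate (M : ℕ) [NeZero M] (ℓ : ℕ) [NeZero ℓ] (hM : M ≠ 1) : Prop :=
  ∃ e : dst_V M ℓ ≃+ ↥(g1c_ParTriv M (ZMod ℓ)),
    (∀ (p : ℕ) [hp : Fact p.Prime] (hpM : ¬ p ∣ M) (v : dst_V M ℓ),
      e (@dst_Tp M ℓ p ⟨hp.out.ne_zero⟩ v) =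
        dst_eig_T p hpM (dst_eig_D (g1t_pU hpM)⁻¹ (e v))) ∧
    ∀ (d : (ZMod M)ˣ) (v : dst_V M ℓ), e (dst_Dd ℓ hM d v) = dst_eig_D d⁻¹ (e v)

/-- the assembly data at `(M, ℓ)` from the good-reduction seams and the gateway -/
theorem dst_topData_of (M : ℕ) [NeZero M] (hM : M ≠ 1) (ℓ : ℕ) [hℓ : Fact ℓ.Prime]
    (hGood : dst_Good M ℓ hM) (hGate : dst_Gate M ℓ hM) : dst_TopData M ℓ := by
  obtain ⟨e, heT, heD⟩ := hGate
  refine ⟨dst_V M ℓ, inferInstance, inferInstance, dst_finite hM hℓ.out.ne_zero,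
    ↥(g1c_ParTriv M (ZMod ℓ)), inferInstance, inferInstance, dst_rhoV M ℓ,
    (fun p hp _ => @dst_Tp M ℓ p ⟨hp.out.ne_zero⟩), dst_Dd ℓ hM,
    (fun p _ hpM => dst_eig_T p hpM), (fun d => dst_eig_D d), e,
    dst_rhoV_finiteLevel hM hℓ.out.ne_zero,
    (fun p hp _ σ => @dst_commute_T M _ ℓ hM p ⟨hp.out.ne_zero⟩ σ),
    (fun d σ => dst_commute_D hM d σ), ?_, ?_, (fun p _ hpM v => heT p hpM v), heD, ?_⟩
  · intro p hp hpM hpℓ A hA σ hσ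
    haveI : NeZero p := ⟨hp.out.ne_zero⟩
    haveI := ese_charP hp.out hA
    exact dst_unram (hGood p hp.out hpM hpℓ A hA) σ hσ
  · intro p hp hpM hpℓ A hA φ hφ v
    haveI : NeZero p := ⟨hp.out.ne_zero⟩
    haveI := ese_charP hp.out hA
    exact dst_ES (hGood p hp.out hpM hpℓ A hA) φ hφ v
  · intro k _ _ _ _ c hc hpar a ψ hT hD
    exact dst_eig k c hc hpar a ψ hT hD

/-- **`ds_SeamTcoh` from the good-reduction seams and the gateway** at all `(M, ℓ)`, `5 ≤ M`,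
`ℓ ≠ 2`. -/
theorem dst_seamTcoh_of_good_gate
    (hGood : ∀ (M : ℕ) [NeZero M] (hM : M ≠ 1), 5 ≤ M → ∀ (ℓ : ℕ) [Fact ℓ.Prime], ℓ ≠ 2 →
      dst_Good M ℓ hM)
    (hGate : ∀ (M : ℕ) [NeZero M] (hM : M ≠ 1), 5 ≤ M → ∀ (ℓ : ℕ) [Fact ℓ.Prime], ℓ ≠ 2 →
      dst_Gate M ℓ hM) :
    ds_SeamTcoh :=
  dst_seamTcoh_of fun M _ hM5 ℓ _ hℓ2 =>
    have hM : M ≠ 1 := by omega
    dst_topData_of M hM ℓ (hGood M hM hM5 ℓ hℓ2) (hGate M hM hM5 ℓ hℓ2)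

end Fermat.Agent.DS

end
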