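/-
DS-T, `gv_diamond`, abstract half: AN AUTOMORPHISM OF THE FUNCTION FIELD WHICH PRESERVES A CHART
RING REDUCES TO AN AUTOMORPHISM OF THE REDUCED FUNCTION FIELD.

`C : rp_Chart A FF k Ft` a chart with enough levels (`C.HasLevels`: the kernel of the reduction
`C.red : C.B → Ft` consists of the multiples of non-unit constants), `Ft = Frac (red C.B)`,
`δ : FF ≃ₐ[Kb] FF` with `δ (C.B) ⊆ C.B`, `δ⁻¹ (C.B) ⊆ C.B`.  Then there is `δt : Ft ≃ₐ[k] Ft` with
`red (δ b) = δt (red b)` for every `b ∈ C.B` (`dst_da_exists`).  Prefix `dst_da_`.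
-/
import Mathlib
import Fermat.Agent.JT3.PlaceMap.FinalChart

set_option autoImplicit false
set_option linter.unusedSectionVars false
set_option linter.style.haveILetI false

noncomputable section

namespace Fermat.Agent.DS

open Fermat.Agent.JT3 AlgebraicCurve

attribute [local instance] Fermat.Agent.JT3.rpm_instAlgSubring Fermat.Agent.JT3.rpm_instAlgFt

section Abs

variable {Kb : Type*} [Field Kb] {A : ValuationSubring Kb}
variable {FF : Type*} [Field FF] [Algebra Kb FF]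
variable {k : Type*} [Field k] {Ft : Type*} [Field Ft] [Algebra k Ft]
variable (C : rp_Chart A FF k Ft)

/-- the residue map of a chart kills the non-units -/
theorem dst_da_res_eq_zero {a : A} (ha : (a : Kb) ∈ A.nonunits) : C.res a = 0 := by
  have h := rpz_res_eq_of_sub_mem C (a := a) (o := 0) (by simpa using ha)
  rw [h, map_zero]

/-- **the kernel of the reduction**: multiples of non-unit constants -/
theorem dst_da_ker (hL : C.HasLevels) (b : C.B) (hb : C.red b = 0) :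
    ∃ (ϖ : Kb) (b' : FF), ϖ ∈ A.nonunits ∧ b' ∈ C.B ∧ (b : FF) = algebraMap Kb FF ϖ * b' := by
  classical
  obtain ⟨L, hSL, -⟩ := hL.refine {(b : FF)} ∅
    (fun z hz => by rw [Finset.mem_singleton.1 hz]; exact b.2) (fun P hP => by simp at hP)
  have hbL : (b : FF) ∈ L.Bl := hSL _ (Finset.mem_singleton_self _)
  have hb' : C.red ⟨((⟨(b : FF), hbL⟩ : L.Bl) : FF), L.Bl_le hbL⟩ = 0 := hb
  obtain ⟨b', hbb'⟩ := L.red_ker ⟨(b : FF), hbL⟩ hb'
  exact ⟨L.ϖ, b', L.ϖ_nonunit, L.Bl_le b'.2, hbb'⟩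

variable (δ : FF ≃ₐ[Kb] FF) (hδ : ∀ b ∈ C.B, δ b ∈ C.B) (hδ' : ∀ b ∈ C.B, δ.symm b ∈ C.B)

/-- the restriction of `δ` to the chart ring -/
def dst_da_equivB : C.B ≃+* C.B where
  toFun b := ⟨δ b, hδ b b.2⟩
  invFun b := ⟨δ.symm b, hδ' b b.2⟩
  left_inv b := Subtype.ext (δ.symm_apply_apply b)
  right_inv b := Subtype.ext (δ.apply_symm_apply b)
  map_mul' a b := Subtype.ext (map_mul δ (a : FF) b)
  map_add' a b := Subtype.ext (map_add δ (a : FF) b)

theorem dst_da_equivB_coe (b : C.B) : ((dst_da_equivB C δ hδ hδ' b : C.B) : FF) = δ b := rfl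

theorem dst_da_equivB_symm_coe (b : C.B) :
    (((dst_da_equivB C δ hδ hδ').symm b : C.B) : FF) = δ.symm b := rfl

/-- an algebra endomorphism preserving the chart ring preserves the kernel of the reduction -/
theorem dst_da_red_eq_zero (hL : C.HasLevels) (ε : FF →ₐ[Kb] FF) (hε : ∀ b ∈ C.B, ε b ∈ C.B)
    (b : C.B) (hb : C.red b = 0) : C.red ⟨ε b, hε b b.2⟩ = 0 := by
  obtain ⟨ϖ, b', hϖ, hb', hbb'⟩ := dst_da_ker C hL b hb
  have hϖA : ϖ ∈ A := (A.mem_nonunits_iff_exists_mem_maximalIdeal.1 hϖ).1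
  have e : (⟨ε b, hε b b.2⟩ : C.B) =
      ⟨algebraMap Kb FF ((⟨ϖ, hϖA⟩ : A) : Kb), C.const_mem ⟨ϖ, hϖA⟩⟩ * ⟨ε b', hε b' hb'⟩ := by
    apply Subtype.ext
    change ε b = algebraMap Kb FF ϖ * ε b'
    rw [hbb', map_mul, ε.commutes]
  rw [e, map_mul, C.red_const, dst_da_res_eq_zero C (a := ⟨ϖ, hϖA⟩) hϖ, map_zero, zero_mul]

include hδ hδ' in
theorem dst_da_ker_map (hL : C.HasLevels) :
    RingHom.ker (rpz_rho C) = (RingHom.ker (rpz_rho C)).map
      ((dst_da_equivB C δ hδ hδ' : C.B ≃+* C.B) : C.B →+* C.B) := by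
  have hz : ∀ b : C.B, rpz_rho C b = 0 ↔ C.red b = 0 := by
    intro b
    constructor
    · intro h
      have := congrArg (algebraMap ↥(rpz_D C) Ft) h
      rwa [rpz_rho_spec, map_zero] at this
    · intro h
      apply Subtype.ext
      exact h
  apply le_antisymm
  · intro b hb
    rw [RingHom.mem_ker, hz] at hb
    have h1 : C.red ⟨δ.symm b, hδ' b b.2⟩ = 0 :=
      dst_da_red_eq_zero C hL (δ.symm : FF →ₐ[Kb] FF) hδ' b hb
    have h2 : (⟨δ.symm b, hδ' b b.2⟩ : C.B) ∈ RingHom.ker (rpz_rho C) := by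
      rw [RingHom.mem_ker, hz]; exact h1
    have h3 := Ideal.mem_map_of_mem
      ((dst_da_equivB C δ hδ hδ' : C.B ≃+* C.B) : C.B →+* C.B) h2
    have e : ((dst_da_equivB C δ hδ hδ' : C.B ≃+* C.B) : C.B →+* C.B)
        ⟨δ.symm b, hδ' b b.2⟩ = b := Subtype.ext (δ.apply_symm_apply b)
    rwa [e] at h3
  · rw [Ideal.map_le_iff_le_comap]
    intro b hb
    rw [RingHom.mem_ker, hz] at hb
    rw [Ideal.mem_comap, RingHom.mem_ker, hz]
    exact dst_da_red_eq_zero C hL (δ : FF →ₐ[Kb] FF) hδ b hb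

/-- the automorphism induced on the reduced chart ring -/
def dst_da_equivD (hL : C.HasLevels) : ↥(rpz_D C) ≃+* ↥(rpz_D C) :=
  (RingHom.quotientKerEquivOfSurjective (rpz_rho_surjective C)).symm.trans
    ((Ideal.quotientEquiv _ _ (dst_da_equivB C δ hδ hδ') (dst_da_ker_map C δ hδ hδ' hL)).trans
      (RingHom.quotientKerEquivOfSurjective (rpz_rho_surjective C)))

theorem dst_da_equivD_rho (hL : C.HasLevels) (b : C.B) :
    dst_da_equivD C δ hδ hδ' hL (rpz_rho C b) = rpz_rho C (dst_da_equivB C δ hδ hδ' b) := by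
  have h1 : (RingHom.quotientKerEquivOfSurjective (rpz_rho_surjective C)).symm (rpz_rho C b)
      = Ideal.Quotient.mk _ b := by
    rw [RingEquiv.symm_apply_eq]
    rfl
  rw [dst_da_equivD, RingEquiv.trans_apply, h1, RingEquiv.trans_apply, Ideal.quotientEquiv_mk]
  rfl

include hδ' in
/-- **an automorphism preserving a chart ring reduces to an automorphism of the reduced field** -/
theorem dst_da_exists (hL : C.HasLevels)
    (hfrac : ∀ f : Ft, ∃ b c : C.B, C.red c ≠ 0 ∧ f * C.red c = C.red b) :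
    ∃ δt : Ft ≃ₐ[k] Ft, ∀ (b : FF) (hb : b ∈ C.B),
      C.red ⟨δ b, hδ b hb⟩ = δt (C.red ⟨b, hb⟩) := by
  haveI : IsFractionRing ↥(rpz_D C) Ft := by
    refine IsFractionRing.of_field _ _ (fun z => ?_)
    obtain ⟨b, c, hc, hzc⟩ := hfrac z
    refine ⟨rpz_rho C b, rpz_rho C c, ?_⟩
    rw [rpz_rho_spec, rpz_rho_spec, eq_div_iff hc]
    exact hzc
  set e : Ft ≃+* Ft := IsFractionRing.ringEquivOfRingEquiv (K := Ft) (L := Ft)
    (dst_da_equivD C δ hδ hδ' hL) with he
  have hred : ∀ (b : FF) (hb : b ∈ C.B), C.red ⟨δ b, hδ b hb⟩ = e (C.red ⟨b, hb⟩) := by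
    intro b hb
    rw [← rpz_rho_spec C ⟨b, hb⟩, he, IsFractionRing.ringEquivOfRingEquiv_algebraMap,
      dst_da_equivD_rho, rpz_rho_spec]
    rfl
  have hcomm : ∀ c : k, e (algebraMap k Ft c) = algebraMap k Ft c := by
    intro c
    obtain ⟨a, rfl⟩ := C.res_surj c
    rw [← C.red_const a, ← hred _ (C.const_mem a)]
    congr 1
    apply Subtype.ext
    exact δ.commutes _
  exact ⟨AlgEquiv.ofRingEquiv (f := e) hcomm, fun b hb => hred b hb⟩

end Abs

end Fermat.Agent.DS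

end
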