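/-
DS-T, `gv_diamond`, generic instance: THE DIAMOND CLAUSE FOR A CHART OF helper10's [E-FIN].

`I : gef_Input π F Ft E₀ π₀ x₀` (the chart `I.B = A[β(fc_chart O₀ {x₀})]` of `F ⊆ Kb((q))` built from the
base level `(K₀, O₀ = A ∩ K₀)`), `δ : F ≃ₐ[Kb] F`, `δ₀ : E₀ ≃ₐ[K₀] E₀` with `δ₀ x₀ = x₀` and
`δ ∘ β = β ∘ δ₀`.  Then (`dst_di_main`) the class `𝒞 = {y | dsr_gen y ∈ I.B}` generates the
principal divisors and `δ` reduces on `𝒞` to an automorphism `δt` of `Ft`.  Prefix `dst_di_`.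
-/
import Mathlib
import Fermat.Agent.DS.Tower.DiamondAbs
import Fermat.Agent.DS.GE.FinMain
import Fermat.Agent.DS.GE.ClassGen

set_option autoImplicit false
set_option linter.unusedSectionVars false
set_option linter.style.haveILetI false
set_option linter.style.longLine false
set_option synthInstance.maxHeartbeats 400000
set_option maxHeartbeats 1000000

noncomputable section

open AlgebraicCurve Polynomial ModularCurve IsLocalRing

namespace Fermat.Agent.DS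

open Fermat.Agent.JT3 Fermat.Agent.S24

section Generic

variable {Kb : Type*} [Field Kb] {A : ValuationSubring Kb} {k : Type*} [Field k]
variable {K₀ : Type*} [Field K₀] [Algebra K₀ Kb]
variable [IsDiscreteValuationRing ↥(A.comap (algebraMap K₀ Kb))]
variable {π : A →+* k} {F : IntermediateField Kb (LaurentSeries Kb)}
  {Ft : IntermediateField k (LaurentSeries k)} {E₀ : IntermediateField K₀ (LaurentSeries K₀)}
  {π₀ : ↥(A.comap (algebraMap K₀ Kb))} {x₀ : ↥E₀}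

omit [IsDiscreteValuationRing ↥(A.comap (algebraMap K₀ Kb))] in
/-- a `K₀`-automorphism of `E₀` fixing the coordinate preserves the base-level chart -/
theorem dst_di_chart_stable (δ₀ : ↥E₀ →ₐ[K₀] ↥E₀) (hx : δ₀ x₀ = x₀) :
    ∀ b ∈ fc_chart ↥(A.comap (algebraMap K₀ Kb)) ({x₀} : Set ↥E₀),
      δ₀ b ∈ fc_chart ↥(A.comap (algebraMap K₀ Kb)) ({x₀} : Set ↥E₀) := by
  intro b hb
  rw [fc_mem_chart] at hb ⊢
  have hfix : ∀ r ∈ Algebra.adjoin ↥(A.comap (algebraMap K₀ Kb)) ({x₀} : Set ↥E₀), δ₀ r = r := by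
    intro r hr
    induction hr using Algebra.adjoin_induction with
    | mem y hy =>
      rw [Set.mem_singleton_iff] at hy
      rw [hy, hx]
    | algebraMap o =>
      have : algebraMap ↥(A.comap (algebraMap K₀ Kb)) ↥E₀ o = algebraMap K₀ ↥E₀ (o : K₀) := rfl
      rw [this, δ₀.commutes]
    | add y z _ _ hy hz => rw [map_add, hy, hz]
    | mul y z _ _ hy hz => rw [map_mul, hy, hz]
  refine IsIntegral.map_of_comp_eq (RingHom.id _) (δ₀ : ↥E₀ →+* ↥E₀) (RingHom.ext fun r => ?_) hb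
  exact (hfix _ r.2).symm

variable (I : gef_Input π F Ft E₀ π₀ x₀)

/-- an automorphism of `F` compatible with an automorphism of the base level fixing the coordinate
preserves the chart ring -/
theorem dst_di_B_stable (δ : ↥F →ₐ[Kb] ↥F) (δ₀ : ↥E₀ →ₐ[K₀] ↥E₀) (hx : δ₀ x₀ = x₀)
    (hcomp : ∀ e : ↥E₀, δ (gef_beta E₀ F I.hEF e) = gef_beta E₀ F I.hEF (δ₀ e)) :
    ∀ b ∈ I.B, δ b ∈ I.B := by
  have hle : I.B ≤ I.B.comap (δ : ↥F →+* ↥F) := by
    apply rp_genRing_le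
    · intro g hg
      rw [Subring.mem_comap]
      rcases (gef_mem_gens I.hEF).1 (Finset.mem_coe.1 hg) with rfl | ⟨g₀, hg₀, rfl⟩
      · change δ _ ∈ I.B
        rw [hcomp]
        exact I.beta_mem_B (dst_di_chart_stable δ₀ hx _ (fc_x_mem_chart x₀))
      · change δ _ ∈ I.B
        rw [hcomp]
        exact I.beta_mem_B (dst_di_chart_stable δ₀ hx _ (I.G_mem g₀ hg₀))
    · intro o ho
      rw [Subring.mem_comap]
      change δ _ ∈ I.B
      rw [δ.commutes]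
      exact I.const_mem_B ⟨o, ho⟩
  exact fun b hb => hle hb

/-- **the diamond clause for a chart of [E-FIN]** -/
theorem dst_di_main [CharZero Kb] [Algebra.IsAlgebraic K₀ Kb] (hF : rp_FunField Kb ↥F)
    (hlift : ∀ g : ↥Ft, g ≠ 0 → ∃ ya yb : dsr_IntFun A π F Ft, dsr_red ya = g * dsr_red yb)
    (δ : ↥F ≃ₐ[Kb] ↥F) (δ₀ : ↥E₀ ≃ₐ[K₀] ↥E₀) (hx : δ₀ x₀ = x₀)
    (hcomp : ∀ e : ↥E₀, δ (gef_beta E₀ F I.hEF e) = gef_beta E₀ F I.hEF (δ₀ e)) :
    ∃ (𝒞 : Set (dsr_IntFun A π F Ft)) (δt : ↥Ft ≃ₐ[k] ↥Ft),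
      dsh_ClassGenerates 𝒞 ∧
      ∀ y ∈ 𝒞, ∃ z : dsr_IntFun A π F Ft, dsr_gen z = δ (dsr_gen y) ∧ dsr_red z = δt (dsr_red y) := by
  have hL := I.hasLevels hF
  -- stability of the chart ring under `δ` and `δ⁻¹`
  have hδ : ∀ b ∈ I.chart.B, δ b ∈ I.chart.B :=
    dst_di_B_stable I (δ : ↥F →ₐ[Kb] ↥F) (δ₀ : ↥E₀ →ₐ[K₀] ↥E₀) hx hcomp
  have hx' : δ₀.symm x₀ = x₀ := by
    rw [AlgEquiv.symm_apply_eq, hx]
  have hcomp' : ∀ e : ↥E₀,
      δ.symm (gef_beta E₀ F I.hEF e) = gef_beta E₀ F I.hEF (δ₀.symm e) := by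
    intro e
    rw [AlgEquiv.symm_apply_eq, hcomp, AlgEquiv.apply_symm_apply]
  have hδ' : ∀ b ∈ I.chart.B, δ.symm b ∈ I.chart.B :=
    dst_di_B_stable I (δ.symm : ↥F →ₐ[Kb] ↥F) (δ₀.symm : ↥E₀ →ₐ[K₀] ↥E₀) hx' hcomp'
  obtain ⟨δt, hδt⟩ := dst_da_exists I.chart δ hδ hδ' hL (I.frac_red hL hlift)
  -- the class
  set 𝒞 : Set (dsr_IntFun A π F Ft) := {y | dsr_gen y ∈ I.B} with h𝒞
  -- a chart function with nonzero reduction is a member of the class
  have hmk : ∀ a : I.chart.B, I.chart.red a ≠ 0 →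
      ∃ y : dsr_IntFun A π F Ft, dsr_gen y = (a : ↥F) ∧ dsr_red y = I.chart.red a := by
    intro a ha
    obtain ⟨y, hy, hyk⟩ := I.B_le_int a.2
    have hyF : coeffMap A.subtype y ∈ F := by rw [hy]; exact (a : ↥F).2
    have hred : ((I.chart.red a : ↥Ft) : LaurentSeries k) = coeffMap π y := I.red_coe a y hy
    refine ⟨⟨y, hyF, hyk, ?_⟩, Subtype.ext hy, Subtype.ext hred.symm⟩
    intro h0
    apply ha
    apply Subtype.ext
    rw [hred, h0]
    rfl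
  refine ⟨𝒞, δt, ?_, ?_⟩
  · refine gec_classGenerates_of_hgen hF 𝒞 (fun f hf => ?_)
    obtain ⟨c, a, b, hc, ha, hb, hfab⟩ := rpm_exists_gauss_factor I.chart hL f hf
    obtain ⟨y, hyg, -⟩ := hmk a ha
    obtain ⟨z, hzg, -⟩ := hmk b hb
    refine ⟨c, y, z, hc, ?_, ?_, ?_⟩
    · change dsr_gen y ∈ I.B
      rw [hyg]; exact a.2
    · change dsr_gen z ∈ I.B
      rw [hzg]; exact b.2
    · rw [hyg, hzg]; exact hfab
  · intro y hy
    have hyB : dsr_gen y ∈ I.chart.B := hy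
    -- the reduction of `dsr_gen y` as a chart function is `dsr_red y`
    have hredy : I.chart.red ⟨dsr_gen y, hyB⟩ = dsr_red y := by
      apply Subtype.ext
      rw [I.red_coe ⟨dsr_gen y, hyB⟩ y.1 rfl]
      rfl
    have hne : I.chart.red ⟨δ (dsr_gen y), hδ _ hyB⟩ ≠ 0 := by
      rw [hδt _ hyB, hredy]
      intro h0
      exact dsr_red_ne_zero y ((map_eq_zero δt).1 h0)
    obtain ⟨z, hzg, hzr⟩ := hmk ⟨δ (dsr_gen y), hδ _ hyB⟩ hne
    refine ⟨z, hzg, ?_⟩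
    rw [hzr, hδt _ hyB, hredy]

end Generic

end Fermat.Agent.DS

end
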