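/-
DS-T, final assembly: CLAUSE `diamond` OF `dst_GoodAt`, the Kronecker congruence part.

* `dst_qExpand_mem_gr` / `dst_qExpand_mem_FC` : in characteristic `p`, `q ↦ q^p` preserves the reduced
  fields `gr_F G k`, `g1f_FC k M N` (generators have integer coefficients: `x(q^p) = x^p`);
* `dst_isDiamond` : `⟨p⟩ = g1dm_F Q̄ hM _ (g1t_pU hpM)` is a diamond in the sense of helper24's swap;
* **`dst_NLC`** : `dsh_NLC A (residue A) (dsh_towerOne M p) (g1f_FC k_A M M) 𝒞 δt` for every class `𝒞`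
  on which `⟨p⟩` reduces to `δt` (helper15's `dsh_nlc_NLC` + helper24's `dsh_sw_swap` + helper15's
  `g1dg_finrankAlong`).
-/
import Mathlib
import Fermat.Agent.DS.Tower.TorsionV
import Fermat.Agent.DS.Hecke.NormRedC
import Fermat.Agent.DS.Hecke.SwapG1
import Fermat.Agent.DS.Gam1.InstDegree
import Fermat.Agent.DS.Gam1.GRBridge

set_option autoImplicit false
set_option synthInstance.maxHeartbeats 400000
set_option maxHeartbeats 1000000
set_option linter.style.haveILetI false
set_option linter.unusedSectionVars false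

noncomputable section

namespace Fermat.Agent.DS

open ModularCurve AlgebraicCurve HahnSeries IntermediateField Fermat.Agent.JT3
open Fermat.Agent.S24 Fermat.Agent.S24.Br

/-! ### `q ↦ q^p` in characteristic `p` -/

section QExp

variable (k : Type*) [Field k] (p : ℕ) [NeZero p] [hp : Fact p.Prime] [CharP k p]

/-- series with integer coefficients: `x(q^p) = x^p` in characteristic `p` -/
theorem dst_qExpand_intCast (g : LaurentSeries ℤ) :
    qExpand k p (coeffMap (Int.castRingHom k) g) = (coeffMap (Int.castRingHom k) g) ^ p := by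
  have h : (frobenius k p).comp (Int.castRingHom k) = Int.castRingHom k := RingHom.ext_int _ _
  rw [ca_pow_eq_qExpand_frobenius k p, coeffMap_coeffMap, h]

/-- `q ↦ q^p` preserves `gr_F G k` in characteristic `p` -/
theorem dst_qExpand_mem_gr (G : Set (LaurentSeries ℤ)) {x : LaurentSeries k}
    (hx : x ∈ gr_F G k) : qExpand k p x ∈ gr_F G k := by
  rw [gr_F] at hx ⊢
  induction hx using IntermediateField.adjoin_induction with
  | mem y hy =>
    obtain ⟨g, hg, rfl⟩ := hy
    rw [dst_qExpand_intCast]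
    exact pow_mem (IntermediateField.subset_adjoin k _ (Set.mem_image_of_mem _ hg)) p
  | algebraMap c =>
    rw [algebraMap_laurentSeries_eq_single, qExpand_single, mul_zero,
      ← algebraMap_laurentSeries_eq_single]
    exact IntermediateField.algebraMap_mem _ _
  | add x y _ _ hx hy => rw [map_add]; exact add_mem hx hy
  | inv x _ hx => rw [map_inv₀]; exact inv_mem hx
  | mul x y _ _ hx hy => rw [map_mul]; exact mul_mem hx hy

/-- `q ↦ q^p` preserves `g1f_FC k M N` in characteristic `p` -/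
theorem dst_qExpand_mem_FC (M N : ℕ) {x : LaurentSeries k} (hx : x ∈ g1f_FC k M N) :
    qExpand k p x ∈ g1f_FC k M N := by
  rw [g1f_FC_eq_gr_F] at hx ⊢
  exact dst_qExpand_mem_gr k p _ hx

end QExp

/-! ### the diamond `⟨p⟩` and the seam `[NL1]` on a class -/

section NLC

local notation "Qb" => AlgebraicClosure ℚ

variable {M : ℕ} [NeZero M] (hM : M ≠ 1) {p : ℕ} [NeZero p] [hp : Fact p.Prime]
  (hpM : ¬ p ∣ M)

/-- `⟨p⟩` is a diamond operator in the sense of the swap embedding -/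
theorem dst_isDiamond :
    dsh_sw_IsDiamond (K := Qb) M p
      ((g1dm_F Qb hM (dvd_refl M) (g1t_pU hpM) : g1i_F Qb M M →ₐ[Qb] g1i_F Qb M M) :
        g1i_F Qb M M →+* g1i_F Qb M M) := by
  refine dsh_sw_isDiamond_of_algHom
    ((g1dm_F Qb hM (dvd_refl M) (g1t_pU hpM) : g1i_F Qb M M →ₐ[Qb] g1i_F Qb M M)) ?_ ?_
  · intro c _ hc x hx
    obtain ⟨x, hxm⟩ := x
    simp only at hx
    subst hx
    exact g1dm_F_jd_coe Qb hM (dvd_refl M) (g1t_pU hpM) c hc hxm
  · intro a x hx
    obtain ⟨x, hxm⟩ := x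
    simp only at hx
    have h1 : x = qExpand Qb 1 (g1w_w Qb M (a : ZMod M)) := by
      rw [hx, qExpand_one_apply]
    subst h1
    have := g1dm_F_wq_coe Qb hM (dvd_refl M) (g1t_pU hpM) 1 (by rw [one_mul]) a hxm
    exact this.trans (by rw [qExpand_one_apply, Units.val_mul, g1t_pU_coe])

variable (A : ValuationSubring Qb)

local notation "kA" => IsLocalRing.ResidueField A

/-- **the seam `[NL1]` on a class `𝒞` for `X₁(M)`** -/
theorem dst_NLC [CharP kA p]
    (𝒞 : Set (dsr_IntFun A (IsLocalRing.residue A) (g1i_F Qb M M) (g1f_FC kA M M)))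
    (δt : g1f_FC kA M M → g1f_FC kA M M)
    (hδ : ∀ y ∈ 𝒞, ∃ z : dsr_IntFun A (IsLocalRing.residue A) (g1i_F Qb M M) (g1f_FC kA M M),
      dsr_gen z = g1dm_F Qb hM (dvd_refl M) (g1t_pU hpM) (dsr_gen y) ∧
      dsr_red z = δt (dsr_red y)) :
    dsh_NLC A (IsLocalRing.residue A) (dsh_towerOne M p) (g1f_FC kA M M) 𝒞 δt := by
  haveI : NeZero ((p : ℕ) : Qb) := NeZero.charZero
  obtain ⟨ζ₀, hζ₀⟩ := HasEnoughRootsOfUnity.exists_primitiveRoot Qb p
  have hζ₀0 : ζ₀ ≠ 0 := hζ₀.ne_zero (NeZero.ne p)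
  set ζ : Qbˣ := Units.mk0 ζ₀ hζ₀0 with hζdef
  have hζ : IsPrimitiveRoot ζ p := by
    rw [← IsPrimitiveRoot.coe_units_iff]
    exact hζ₀
  have hδd := dst_isDiamond hM hpM
  obtain ⟨w, hwα, hwβ⟩ := dsh_sw_swap (K := Qb) M p hM hp.out hpM _ hδd
  exact dsh_nlc_NLC (L := Qb) (dsh_towerOne M p)
    (fun y => g1dm_F Qb hM (dvd_refl M) (g1t_pU hpM) y) δt 𝒞 hδ
    (g1dg_finrankAlong Qb hM hp.out hpM _) (algebraMap Qb ℂ) w hwα hwβ (dsh_sw_jBar M)
    hδd.coeff_jBar ζ hζ
    (fun x hx => dst_coeffStable kA M M (frobenius kA p) x hx)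
    (fun x hx => dst_qExpand_mem_FC kA p M M hx)

end NLC

end Fermat.Agent.DS

end
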