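/-
DS-T, final assembly: THE CHARACTERISTIC-ZERO INPUTS OF `dst_GoodAt` FOR `X₁(M)`.

* `dst_heckeInputs hM p : dsh_HeckeInputs Q̄ (dsh_towerOne M p)` (clause `hecke` of `dst_GoodAt`):
  finiteness over `Q̄(j)` at the levels `(M, M)` and `(M, M p)` (helper15's `g1dg_finite`) +
  helper24's generic producers `dsh_inp_heckeInputs`.
-/
import Mathlib
import Fermat.Agent.DS.Hecke.InputsGen
import Fermat.Agent.DS.Hecke.Gam1Tower
import Fermat.Agent.DS.Gam1.InstDescent

set_option autoImplicit false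
set_option synthInstance.maxHeartbeats 400000
set_option maxHeartbeats 1000000
set_option linter.style.haveILetI false
set_option linter.unusedSectionVars false

noncomputable section

namespace Fermat.Agent.DS

open ModularCurve AlgebraicCurve HahnSeries IntermediateField Fermat.Agent.JT3
open Fermat.Agent.S24 Fermat.Agent.S24.Br

local notation "Qb" => AlgebraicClosure ℚ

/-- **the correspondence inputs of `T_p` on `X₁(M)`** -/
theorem dst_heckeInputs {M : ℕ} [NeZero M] (hM : M ≠ 1) (p : ℕ) [NeZero p] :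
    dsh_HeckeInputs Qb (dsh_towerOne M p) := by
  haveI : NeZero (M * p) := ⟨Nat.mul_ne_zero (NeZero.ne M) (NeZero.ne p)⟩
  haveI h0 : FiniteDimensional ↥(Qb⟮g1dg_jF Qb M M⟯) ↥(g1i_F Qb M M) :=
    g1dg_finite Qb hM (dvd_refl M)
  haveI h1 : FiniteDimensional ↥(Qb⟮g1dg_jF Qb M (M * p)⟯) ↥(g1i_F Qb M (M * p)) :=
    g1dg_finite Qb hM (dvd_mul_right M p)
  exact @dsh_inp_heckeInputs Qb _ _ _ _ p _ (dsh_towerOne M p) (g1dg_jF Qb M M)
    (g1dd_jF_transcendental Qb (M := M) (N := M)) h0 (g1dg_jF Qb M (M * p)) h1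

end Fermat.Agent.DS

end
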