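/-
DS-T, final assembly: CLAUSE `red` OF `dst_GoodAt` (node-E twin for `X₁(M)` at a place `A | p`,
`p ∤ M`) from the landed cells:

 (A1) `g1dg_A1Q`, (R) `g1i_ram_ramData_gr`, [GE] `gei_nodeE`, [GE-WIRE] `gew_base_level0`,
 (V)-Legendre at the base level `↥(ebf_K0 p) = ebf_K0 p` from `gv1_vertHyp_gam1` (`p` odd);

remaining hypotheses: (RG) at the base level, and (V)-Hesse at the base level when `p = 2`.
-/
import Mathlib
import Fermat.Agent.DS.Tower.GoodTransport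
import Fermat.Agent.DS.GE.Inst
import Fermat.Agent.DS.GE.WireInst
import Fermat.Agent.DS.GR.VertGam1

set_option autoImplicit false
set_option synthInstance.maxHeartbeats 400000
set_option maxHeartbeats 1000000
set_option linter.style.haveILetI false
set_option linter.unusedSectionVars false

noncomputable section

namespace Fermat.Agent.DS

open ModularCurve AlgebraicCurve HahnSeries IntermediateField Fermat.Agent.JT3
open Fermat.Agent.S24 Fermat.Agent.S24.Br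

local notation "Qb" => AlgebraicClosure ℚ

section Red

variable {M : ℕ} [NeZero M] (A : ValuationSubring Qb) {p : ℕ} [Fact p.Prime]

local notation "kA" => IsLocalRing.ResidueField A

/-- a primitive `M`-th root of unity in `↥(ebf_K0 p) = ebf_K0 p`, `p ∤ M` -/
theorem dst_exists_primitiveRoot_K0 (hpM : ¬ p ∣ M) : ∃ ζ : ↥(ebf_K0 p), IsPrimitiveRoot ζ M := by
  obtain ⟨ζ, hζ⟩ := HasEnoughRootsOfUnity.exists_primitiveRoot Qb M
  exact ⟨⟨ζ, ebf_mem_K0 hpM hζ.pow_eq_one⟩, IsPrimitiveRoot.coe_submonoidClass_iff.1 hζ⟩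

/-- (V)-Legendre for the `Γ₁(M)` family at the base level `(↥(ebf_K0 p), ↥(A.comap (algebraMap ↥(ebf_K0 p) Qb)), p)`, `p` odd, `p ∤ M` -/
theorem dst_vertLeg_base (hM : 3 ≤ M) (hA : A.LiesOverPrime p) (hpM : ¬ p ∣ M) (hp2 : p ≠ 2)
    [IsDiscreteValuationRing ↥(A.comap (algebraMap ↥(ebf_K0 p) Qb))] :
    gr_VertHyp (A.comap (algebraMap ↥(ebf_K0 p) Qb)) (gr_F (g1f_GZ M M) ↥(ebf_K0 p)) ((p : ℕ) : ↥(A.comap (algebraMap ↥(ebf_K0 p) Qb)))
      (lgh_lamK ↥(ebf_K0 p)) := by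
  have hM1 : M ≠ 1 := by omega
  obtain ⟨ζ, hζ⟩ := dst_exists_primitiveRoot_K0 (p := p) (M := M) hpM
  have hA1 : gr_A1 (g1f_FC ↥(ebf_K0 p) M M) := by
    rw [g1f_FC_eq_gr_F]
    exact gr_A1_family _ (g1dg_A1Q hM1 (dvd_refl M)) ↥(ebf_K0 p)
  rw [← g1f_FC_eq_gr_F]
  exact gv1_vertHyp_gam1 ↥(ebf_K0 p) _ M M hM (ebf_irreducible A p hA) p
    (ebr_natCast_mem_maximalIdeal A p hA) hp2 hpM ζ hζ hA1 _ (Or.inl rfl)

/-- **clause `red` of `dst_GoodAt`** from (RG) at the base level (and (V)-Hesse at the base level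
for `p = 2`) -/
theorem dst_red_of_RG (hM : 3 ≤ M) (hA : A.LiesOverPrime p) (hpM : ¬ p ∣ M)
    [IsDiscreteValuationRing ↥(A.comap (algebraMap ↥(ebf_K0 p) Qb))]
    (hvH : p = 2 → ∀ h3 : (3 : ↥(ebf_K0 p)) ≠ 0,
      grs_VertHyp h3 (A.comap (algebraMap ↥(ebf_K0 p) Qb)) (gr_F (g1f_GZ M M) ↥(ebf_K0 p))
        ((p : ℕ) : ↥(A.comap (algebraMap ↥(ebf_K0 p) Qb))) (hsh_muK ↥(ebf_K0 p) h3))
    (hRG : ∀ z : LaurentSeries ↥(ebf_K0 p), z ∈ gr_F (g1f_GZ M M) ↥(ebf_K0 p) →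
      ∀ hz : gq_IsBdd ↥(A.comap (algebraMap ↥(ebf_K0 p) Qb)) ↥(ebf_K0 p) z, gq_res ↥(A.comap (algebraMap ↥(ebf_K0 p) Qb)) ↥(ebf_K0 p) ⟨z, hz⟩ ∈
        gr_F (g1f_GZ M M) (IsLocalRing.ResidueField ↥(A.comap (algebraMap ↥(ebf_K0 p) Qb)))) :
    dsr_ReductionInputs A (IsLocalRing.residue A) (g1i_F Qb M M) (g1f_FC kA M M) := by
  have hM1 : M ≠ 1 := by omega
  have hG := g1dg_A1Q hM1 (dvd_refl M)
  have hjG := g1f_jZ_mem_GZ M M
  obtain ⟨H1, H2⟩ := gew_base_level0 (g1f_GZ M M) A hA hG hjG M hpM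
    (g1i_ram_ramData_gr hM1 (dvd_refl M)) (fun hp2 => dst_vertLeg_base A hM hA hpM hp2) hvH
  exact dst_red_of_gr A (gei_nodeE A hG hjG hA H1 H2 hRG)

end Red

end Fermat.Agent.DS

end
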