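/-
DS-T, final assembly: CLAUSE `red` OF `dst_GoodAt`, with (RG) discharged by helper16's
`gv1r_RG_place`: for `p` odd UNCONDITIONAL; for `p = 2` from (V)-Hesse at the base level.
-/
import Mathlib
import Fermat.Agent.DS.Tower.GoodRed
import Fermat.Agent.DS.GR.ResGam1

set_option autoImplicit false
set_option synthInstance.maxHeartbeats 400000
set_option maxHeartbeats 1000000
set_option linter.style.haveILetI false
set_option linter.unusedSectionVars false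

noncomputable section

namespace Fermat.Agent.DS

open ModularCurve AlgebraicCurve HahnSeries IntermediateField Fermat.Agent.JT3
open Fermat.Agent.S24 Fermat.Agent.S24.Br

local notation "Qb" => AlgebraicClosure ℚ

section Red

variable {M : ℕ} [NeZero M] (A : ValuationSubring Qb) {p : ℕ} [Fact p.Prime]

local notation "kA" => IsLocalRing.ResidueField A

/-- the node-E twin for the generic family at `G = g1f_GZ M M` (input (E) of `gr_S18_top`) -/
theorem dst_red_gr (hM : 3 ≤ M) (hA : A.LiesOverPrime p) (hpM : ¬ p ∣ M)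
    (hvH : p = 2 → ∀ h3 : (3 : ↥(ebf_K0 p)) ≠ 0,
      grs_VertHyp h3 (A.comap (algebraMap ↥(ebf_K0 p) Qb)) (gr_F (g1f_GZ M M) ↥(ebf_K0 p))
        ((p : ℕ) : ↥(A.comap (algebraMap ↥(ebf_K0 p) Qb))) (hsh_muK ↥(ebf_K0 p) h3)) :
    dsr_ReductionInputs A (IsLocalRing.residue A) (gr_F (g1f_GZ M M) Qb)
      (gr_F (g1f_GZ M M) kA) := by
  haveI := ebf_isDVR A p hA
  have hM1 : M ≠ 1 := by omega
  have hG := g1dg_A1Q hM1 (dvd_refl M)
  have hjG := g1f_jZ_mem_GZ M M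
  obtain ⟨H1, H2⟩ := gew_base_level0 (g1f_GZ M M) A hA hG hjG M hpM
    (g1i_ram_ramData_gr hM1 (dvd_refl M)) (fun hp2 => dst_vertLeg_base A hM hA hpM hp2) hvH
  exact gei_nodeE A hG hjG hA H1 H2
    (fun z hzF hz => gv1r_RG_place A ↥(ebf_K0 p) M M hM hpM hA z hzF hz)

/-- **clause `red` of `dst_GoodAt`** (for `p = 2`: from (V)-Hesse at the base level) -/
theorem dst_red (hM : 3 ≤ M) (hA : A.LiesOverPrime p) (hpM : ¬ p ∣ M)
    (hvH : p = 2 → ∀ h3 : (3 : ↥(ebf_K0 p)) ≠ 0,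
      grs_VertHyp h3 (A.comap (algebraMap ↥(ebf_K0 p) Qb)) (gr_F (g1f_GZ M M) ↥(ebf_K0 p))
        ((p : ℕ) : ↥(A.comap (algebraMap ↥(ebf_K0 p) Qb))) (hsh_muK ↥(ebf_K0 p) h3)) :
    dsr_ReductionInputs A (IsLocalRing.residue A) (g1i_F Qb M M) (g1f_FC kA M M) :=
  dst_red_of_gr A (dst_red_gr A hM hA hpM hvH)

/-- **clause `inj` of `dst_GoodAt`** (for `p = 2`: from (V)-Hesse at the base level and at the number
field levels) -/
theorem dst_inj (hM : 3 ≤ M) (hA : A.LiesOverPrime p) (hpM : ¬ p ∣ M)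
    (hvH : p = 2 → ∀ h3 : (3 : ↥(ebf_K0 p)) ≠ 0,
      grs_VertHyp h3 (A.comap (algebraMap ↥(ebf_K0 p) Qb)) (gr_F (g1f_GZ M M) ↥(ebf_K0 p))
        ((p : ℕ) : ↥(A.comap (algebraMap ↥(ebf_K0 p) Qb))) (hsh_muK ↥(ebf_K0 p) h3))
    (hvH' : p = 2 → gr_VertHes (g1f_GZ M M) A M)
    (ℓ : ℕ) (hpℓ : ¬ p ∣ ℓ) :
    ∀ z : Pic0 Qb (g1i_F Qb M M), ℓ • z = 0 →
      dsr_reduction A (IsLocalRing.residue A) (g1i_F Qb M M) (g1f_FC kA M M) z = 0 → z = 0 := by
  have hM1 : M ≠ 1 := by omega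
  exact dst_inj_of_gr A hM hA hpM (dst_red_gr A hM hA hpM hvH)
    (fun hp2 => gv1_vertLeg A M M hM hA hp2 hpM (g1dg_A1Q hM1 (dvd_refl M)) M (dvd_refl M))
    hvH' ℓ hpℓ

end Red

end Fermat.Agent.DS

end
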