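/-
DS-T, final assembly: `dst_GoodAt` AND `dst_Good` FROM THE REMAINING OPEN INPUTS.

`dst_goodAt_of` : at a place `A | p`, `p ∤ M`, `p ≠ ℓ`, `3 ≤ M`: the structure `dst_GoodAt ℓ hM hpM A` from
 * (V)-Hesse (only for `p = 2`): `hvH` at the base level `ebf_K0 2`, `hvH'` at number-field levels;
 * `hdiam` : a generating class `𝒞` of `q`-integral functions on which `⟨p⟩` reduces to an
   automorphism `δt` of the reduced field.
Everything else (`red`, `inj`, `hecke`, `[NL1]`) is proved.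
-/
import Mathlib
import Fermat.Agent.DS.Tower.GoodRedFinal
import Fermat.Agent.DS.Tower.GoodDiamond
import Fermat.Agent.DS.Tower.GoodInputs
import Fermat.Agent.DS.Tower.TorsionMain

set_option autoImplicit false
set_option synthInstance.maxHeartbeats 400000
set_option maxHeartbeats 1000000
set_option linter.style.haveILetI false
set_option linter.unusedSectionVars false

noncomputable section

namespace Fermat.Agent.DS

open ModularCurve AlgebraicCurve HahnSeries IntermediateField Fermat.Agent.JT3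
open Fermat.Agent.S24 Fermat.Agent.S24.Br

local notation "Qb" => AlgebraicClosure ℚ

section GoodAt

/-- the (V)-Hesse inputs at a place `A | p` (vacuous for `p` odd) -/
def dst_HesseAt (M p : ℕ) (A : ValuationSubring Qb) : Prop :=
  (p = 2 → ∀ h3 : (3 : ↥(ebf_K0 p)) ≠ 0,
    grs_VertHyp h3 (A.comap (algebraMap ↥(ebf_K0 p) Qb)) (gr_F (g1f_GZ M M) ↥(ebf_K0 p))
      ((p : ℕ) : ↥(A.comap (algebraMap ↥(ebf_K0 p) Qb))) (hsh_muK ↥(ebf_K0 p) h3)) ∧
  (p = 2 → gr_VertHes (g1f_GZ M M) A M)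

/-- the diamond input at a place `A | p`: a generating class on which `⟨p⟩` reduces to `δt` -/
def dst_DiamondAt {M : ℕ} [NeZero M] (hM : M ≠ 1) {p : ℕ} [Fact p.Prime] (hpM : ¬ p ∣ M)
    (A : ValuationSubring Qb) : Prop :=
  ∃ (𝒞 : Set (dsr_IntFun A (IsLocalRing.residue A) (g1i_F Qb M M)
        (g1f_FC (IsLocalRing.ResidueField A) M M)))
      (δt : g1f_FC (IsLocalRing.ResidueField A) M M ≃ₐ[IsLocalRing.ResidueField A]
        g1f_FC (IsLocalRing.ResidueField A) M M),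
    dsh_ClassGenerates 𝒞 ∧
    ∀ y ∈ 𝒞, ∃ z : dsr_IntFun A (IsLocalRing.residue A) (g1i_F Qb M M)
        (g1f_FC (IsLocalRing.ResidueField A) M M),
      dsr_gen z = g1dm_F Qb hM (dvd_refl M) (g1t_pU hpM) (dsr_gen y) ∧
      dsr_red z = δt (dsr_red y)

variable {M : ℕ} [NeZero M] {ℓ : ℕ} {hM : M ≠ 1} {p : ℕ} [NeZero p] [hp : Fact p.Prime]
  {hpM : ¬ p ∣ M} {A : ValuationSubring Qb}

local notation "kA" => IsLocalRing.ResidueField A

/-- **`dst_GoodAt` from (V)-Hesse and the diamond input** -/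
theorem dst_goodAt_of [CharP kA p] (hM3 : 3 ≤ M) (hA : A.LiesOverPrime p) (hpℓ : ¬ p ∣ ℓ)
    (hH : dst_HesseAt M p A) (hD : dst_DiamondAt hM hpM A) :
    dst_GoodAt ℓ hM hpM A := by
  obtain ⟨𝒞, δt, h𝒞, hδ⟩ := hD
  exact
    { red := dst_red A hM3 hA hpM hH.1
      inj := dst_inj A hM3 hA hpM hH.1 hH.2 ℓ hpℓ
      hecke := dst_heckeInputs hM p
      diamond := ⟨𝒞, δt, h𝒞, hδ, dst_NLC hM hpM A 𝒞 δt hδ⟩ }

end GoodAt

/-- **`dst_Good` from (V)-Hesse and the diamond input at every place** -/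
theorem dst_good_of {M : ℕ} [NeZero M] (hM3 : 3 ≤ M) (hM : M ≠ 1) (ℓ : ℕ) (hℓ : ℓ.Prime)
    (hH : ∀ (A : ValuationSubring Qb), A.LiesOverPrime 2 → ¬ 2 ∣ M → dst_HesseAt M 2 A)
    (hD : ∀ (p : ℕ) (hp : p.Prime) (hpM : ¬ p ∣ M) (A : ValuationSubring Qb),
      A.LiesOverPrime p → @dst_DiamondAt M _ hM p ⟨hp⟩ hpM A) :
    dst_Good M ℓ hM := by
  intro p hp hpM hpℓ A hA
  haveI : Fact p.Prime := ⟨hp⟩
  haveI : NeZero p := ⟨hp.ne_zero⟩
  haveI := ese_charP hp hA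
  have hpℓ' : ¬ p ∣ ℓ := fun h => hpℓ ((Nat.prime_dvd_prime_iff_eq hp hℓ).1 h)
  refine dst_goodAt_of hM3 hA hpℓ' ?_ (hD p hp hpM A hA)
  by_cases h2 : p = 2
  · subst h2
    exact hH A hA hpM
  · exact ⟨fun h => absurd h h2, fun h => absurd h h2⟩

end Fermat.Agent.DS

end
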