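/-
DS-T, `gv_diamond` FOR `X₁(M)`: the diamond input `dst_DiamondAt hM hpM A` of `dst_good_of`.

At a place `A | p`, `p ∤ M`, `3 ≤ M`: helper10's chart `I` (coordinate `j`, base level `K₀ = ebf_K0 p`)
for the fields `g1i_F Q̄ M M`, `g1f_FC k_A M M`, `g1i_F K₀ M M`; the diamonds
`δ = g1dm_F Q̄ hM _ d`, `δ₀ = g1dm_F K₀ hM _ d` are compatible with the extension of constants and `δ₀`
fixes `j`, so `dst_di_main` applies.  For `p = 2` the base-level (V)-Hesse hypothesis remains.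
Prefix `dst_dg_`.
-/
import Mathlib
import Fermat.Agent.DS.Tower.DiamondInst
import Fermat.Agent.DS.Tower.Good

set_option autoImplicit false
set_option linter.unusedSectionVars false
set_option linter.style.haveILetI false
set_option linter.style.longLine false
set_option synthInstance.maxHeartbeats 400000
set_option maxHeartbeats 1000000

noncomputable section

open AlgebraicCurve Polynomial ModularCurve IsLocalRing IntermediateField

namespace Fermat.Agent.DS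

open Fermat.Agent.JT3 Fermat.Agent.S24 Fermat.Agent.S24.Br

/-! ### transport of the chart input along equalities of the fields -/

section Congr

variable {Kb : Type*} [Field Kb] {A : ValuationSubring Kb} {k : Type*} [Field k]
variable {K₀ : Type*} [Field K₀] [Algebra K₀ Kb]
variable [IsDiscreteValuationRing ↥(A.comap (algebraMap K₀ Kb))]
variable {π : A →+* k} {F F' : IntermediateField Kb (LaurentSeries Kb)}
  {Ft Ft' : IntermediateField k (LaurentSeries k)}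
  {E₀ E₀' : IntermediateField K₀ (LaurentSeries K₀)}
  {π₀ : ↥(A.comap (algebraMap K₀ Kb))}

theorem dst_dg_input_congr (hF : F = F') (hFt : Ft = Ft') (hE : E₀ = E₀') {x₀ : ↥E₀} {x₀' : ↥E₀'}
    (hx : (x₀ : LaurentSeries K₀) = (x₀' : LaurentSeries K₀))
    (I : gef_Input π F Ft E₀ π₀ x₀) : gef_Input π F' Ft' E₀' π₀ x₀' := by
  subst hF hFt hE
  obtain rfl : x₀ = x₀' := Subtype.ext hx
  exact I

theorem dst_dg_funField_congr (hF : F = F') (h : rp_FunField Kb ↥F) : rp_FunField Kb ↥F' := by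
  subst hF
  exact h

theorem dst_dg_lifts_congr (hF : F = F') (hFt : Ft = Ft')
    (h : ∀ g : ↥Ft, g ≠ 0 → ∃ ya yb : dsr_IntFun A π F Ft, dsr_red ya = g * dsr_red yb) :
    ∀ g : ↥Ft', g ≠ 0 → ∃ ya yb : dsr_IntFun A π F' Ft', dsr_red ya = g * dsr_red yb := by
  subst hF hFt
  exact h

end Congr

local notation "Qb" => AlgebraicClosure ℚ

section Gam1

variable {M : ℕ} [NeZero M] (hM : M ≠ 1) {p : ℕ} [hp : Fact p.Prime] (A : ValuationSubring Qb)

/-- the extension of constants `K₀ → Q̄` maps the `Γ₁`-field into the `Γ₁`-field -/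
theorem dst_dg_hEF (K₀ : Type) [Field K₀] [Algebra ℚ K₀] [Algebra K₀ Qb] (x : LaurentSeries K₀)
    (hx : x ∈ g1i_F K₀ M M) : coeffMap (algebraMap K₀ Qb) x ∈ g1i_F Qb M M := by
  rw [g1i_ram_field_eq] at hx ⊢
  exact gr_coeffMap_mem _ (algebraMap K₀ Qb) hx

/-- the diamonds commute with the extension of constants -/
theorem dst_dg_comp (K₀ : Type) [Field K₀] [Algebra ℚ K₀] [Algebra K₀ Qb] [Algebra K₀ ℂ]
    (hEF : ∀ x ∈ g1i_F K₀ M M, coeffMap (algebraMap K₀ Qb) x ∈ g1i_F Qb M M)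
    (d : (ZMod M)ˣ) (e : g1i_F K₀ M M) :
    g1dm_F Qb hM (dvd_refl M) d (gef_beta (g1i_F K₀ M M) (g1i_F Qb M M) hEF e)
      = gef_beta (g1i_F K₀ M M) (g1i_F Qb M M) hEF (g1dm_F K₀ hM (dvd_refl M) d e) := by
  set β := gef_beta (g1i_F K₀ M M) (g1i_F Qb M M) hEF with hβ
  have hj : ∀ (c : ℕ) [NeZero c] (hc : c ∣ M),
      β (algebraMap (g1i_A K₀ M M) (g1i_F K₀ M M) (g1i_jd K₀ M c hc))
        = algebraMap (g1i_A Qb M M) (g1i_F Qb M M) (g1i_jd Qb M c hc) := by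
    intro c _ hc
    apply Subtype.ext
    change coeffMap (algebraMap K₀ Qb) (qExpand K₀ c (jqModC K₀)) = qExpand Qb c (jqModC Qb)
    rw [coeffMap_qExpand, coeffMap_jqModC]
  have hw : ∀ (c : ℕ) [NeZero c] (hc : c * M ∣ M) (a : (ZMod M)ˣ),
      β (algebraMap (g1i_A K₀ M M) (g1i_F K₀ M M) (g1i_wq K₀ c hc a))
        = algebraMap (g1i_A Qb M M) (g1i_F Qb M M) (g1i_wq Qb c hc a) := by
    intro c _ hc a
    apply Subtype.ext
    change coeffMap (algebraMap K₀ Qb) (qExpand K₀ c (g1w_w K₀ M (a : ZMod M)))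
      = qExpand Qb c (g1w_w Qb M (a : ZMod M))
    rw [coeffMap_qExpand, g1w_coeffMap_w]
  have key : ((g1dm_F Qb hM (dvd_refl M) d : g1i_F Qb M M ≃ₐ[Qb] g1i_F Qb M M) :
      g1i_F Qb M M →+* g1i_F Qb M M).comp β
      = β.comp ((g1dm_F K₀ hM (dvd_refl M) d : g1i_F K₀ M M ≃ₐ[K₀] g1i_F K₀ M M) :
          g1i_F K₀ M M →+* g1i_F K₀ M M) := by
    refine g1dm_ringHom_ext_F K₀ (fun c => ?_) (fun c _ hc => ?_) (fun c _ hc a => ?_)
    · simp only [RingHom.comp_apply, RingHom.coe_coe, AlgEquiv.commutes]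
      rw [hβ, gef_beta_algebraMap, AlgEquiv.commutes]
    · simp only [RingHom.comp_apply, RingHom.coe_coe]
      rw [g1dm_F_jd, hj c hc, g1dm_F_jd]
    · simp only [RingHom.comp_apply, RingHom.coe_coe]
      rw [g1dm_F_wq, hw c hc a, hw c hc (a * d), g1dm_F_wq]
  exact RingHom.congr_fun key e

variable [IsDiscreteValuationRing ↥(A.comap (algebraMap ↥(ebf_K0 p) Qb))]

local notation "kA" => IsLocalRing.ResidueField A

/-- helper10's chart input for the `Γ₁`-fields, coordinate `j` -/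
theorem dst_dg_input (hM3 : 3 ≤ M) (hA : A.LiesOverPrime p) (hpM : ¬ p ∣ M)
    (hvH : p = 2 → ∀ h3 : (3 : ↥(ebf_K0 p)) ≠ 0,
      grs_VertHyp h3 (A.comap (algebraMap ↥(ebf_K0 p) Qb)) (gr_F (g1f_GZ M M) ↥(ebf_K0 p))
        ((p : ℕ) : ↥(A.comap (algebraMap ↥(ebf_K0 p) Qb))) (hsh_muK ↥(ebf_K0 p) h3)) :
    gef_Input (IsLocalRing.residue A) (g1i_F Qb M M) (g1f_FC kA M M) (g1i_F ↥(ebf_K0 p) M M)
      ((p : ℕ) : ↥(A.comap (algebraMap ↥(ebf_K0 p) Qb))) (g1dg_jF ↥(ebf_K0 p) M M) := by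
  have hM1 : M ≠ 1 := by omega
  have hG := g1dg_A1Q hM1 (dvd_refl M)
  have hjG := g1f_jZ_mem_GZ M M
  obtain ⟨H1, -⟩ := gew_base_level0 (g1f_GZ M M) A hA hG hjG M hpM
    (g1i_ram_ramData_gr hM1 (dvd_refl M)) (fun hp2 => dst_vertLeg_base A hM3 hA hpM hp2) hvH
  have hRG : ∀ b ∈ fc_chart ↥(A.comap (algebraMap ↥(ebf_K0 p) Qb))
        ({gei_j (g1f_GZ M M) hjG ↥(ebf_K0 p)} : Set ↥(gr_F (g1f_GZ M M) ↥(ebf_K0 p))),
      ∀ w : LaurentSeries ↥(A.comap (algebraMap ↥(ebf_K0 p) Qb)),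
        coeffMap (algebraMap ↥(A.comap (algebraMap ↥(ebf_K0 p) Qb)) ↥(ebf_K0 p)) w =
          (b : LaurentSeries ↥(ebf_K0 p)) →
        coeffMap (gef_rho (K₀ := ↥(ebf_K0 p)) (IsLocalRing.residue A)) w ∈
          gr_F (g1f_GZ M M) (ResidueField A) := by
    intro b hb w hw
    have h1 := gv1r_RG_place A ↥(ebf_K0 p) M M hM3 hpM hA (b : LaurentSeries ↥(ebf_K0 p)) b.2
      (by rw [← hw]; exact gq_isBdd_iota w)
    rw [gq_res_of_eq_iota _ w hw.symm] at h1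
    have h2 := gr_coeffMap_mem (g1f_GZ M M)
      (ResidueField.map (gq_bc_comapHom (L := ↥(ebf_K0 p)) A)) h1
    have e : coeffMap (ResidueField.map (gq_bc_comapHom (L := ↥(ebf_K0 p)) A))
        (coeffMap (residue ↥(A.comap (algebraMap ↥(ebf_K0 p) Qb))) w) =
        coeffMap (gef_rho (K₀ := ↥(ebf_K0 p)) (IsLocalRing.residue A)) w := by
      rw [coeffMap_coeffMap]
      rfl
    rw [← e]
    exact h2
  have I := gei_input A hG hjG hA (gei_j (g1f_GZ M M) hjG ↥(ebf_K0 p)) (Or.inl rfl) H1 hRG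
    (gei_lift_j A hjG)
  refine dst_dg_input_congr (g1i_ram_field_eq Qb M M).symm (g1f_FC_eq_gr_F kA M M).symm
    (g1i_ram_field_eq ↥(ebf_K0 p) M M).symm ?_ I
  rw [gei_coe_j, g1dg_jF_coe]

/-- **the diamond input of `dst_good_of`**, every unit `d` -/
theorem dst_dg_diamond (hM3 : 3 ≤ M) (hA : A.LiesOverPrime p) (hpM : ¬ p ∣ M)
    (hvH : p = 2 → ∀ h3 : (3 : ↥(ebf_K0 p)) ≠ 0,
      grs_VertHyp h3 (A.comap (algebraMap ↥(ebf_K0 p) Qb)) (gr_F (g1f_GZ M M) ↥(ebf_K0 p))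
        ((p : ℕ) : ↥(A.comap (algebraMap ↥(ebf_K0 p) Qb))) (hsh_muK ↥(ebf_K0 p) h3))
    (d : (ZMod M)ˣ) :
    ∃ (𝒞 : Set (dsr_IntFun A (IsLocalRing.residue A) (g1i_F Qb M M) (g1f_FC kA M M)))
      (δt : g1f_FC kA M M ≃ₐ[kA] g1f_FC kA M M),
      dsh_ClassGenerates 𝒞 ∧
      ∀ y ∈ 𝒞, ∃ z : dsr_IntFun A (IsLocalRing.residue A) (g1i_F Qb M M) (g1f_FC kA M M),
        dsr_gen z = g1dm_F Qb hM (dvd_refl M) d (dsr_gen y) ∧ dsr_red z = δt (dsr_red y) := by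
  have hG := g1dg_A1Q hM (dvd_refl M)
  have hjG := g1f_jZ_mem_GZ M M
  haveI : Algebra.IsAlgebraic ℚ Qb := AlgebraicClosure.isAlgebraic ℚ
  haveI : Algebra.IsAlgebraic ↥(ebf_K0 p) Qb :=
    Algebra.IsAlgebraic.tower_top (K := ℚ) ↥(ebf_K0 p)
  have I := dst_dg_input A hM3 hA hpM hvH
  have hF : rp_FunField Qb ↥(g1i_F Qb M M) :=
    dst_dg_funField_congr (g1i_ram_field_eq Qb M M).symm (gei_funField_bar hG hjG)
  have hlift := dst_dg_lifts_congr (A := A) (π := IsLocalRing.residue A)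
    (g1i_ram_field_eq Qb M M).symm (g1f_FC_eq_gr_F kA M M).symm
    (gr_lifts (g1f_GZ M M) (A := A) IsLocalRing.residue_surjective)
  exact dst_di_main I hF hlift (g1dm_F Qb hM (dvd_refl M) d)
    (g1dm_F ↥(ebf_K0 p) hM (dvd_refl M) d)
    (g1dm_F_jd ↥(ebf_K0 p) hM (dvd_refl M) d 1 (one_dvd M))
    (fun e => dst_dg_comp hM ↥(ebf_K0 p) I.hEF d e)

end Gam1

/-- **`dst_DiamondAt`** at a place over an odd prime `p ∤ M` is a theorem; at `p = 2` it follows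
from the base-level (V)-Hesse hypothesis -/
theorem dst_diamondAt {M : ℕ} [NeZero M] (hM3 : 3 ≤ M) (hM : M ≠ 1) {p : ℕ} [hp : Fact p.Prime]
    (hpM : ¬ p ∣ M) (A : ValuationSubring Qb) (hA : A.LiesOverPrime p)
    (hH : dst_HesseAt M p A) : dst_DiamondAt hM hpM A := by
  haveI := ebf_isDVR A p hA
  exact dst_dg_diamond hM A hM3 hA hpM hH.1 (g1t_pU hpM)

/-- **`dst_Good` from (V)-Hesse alone** -/
theorem dst_good_of_hesse {M : ℕ} [NeZero M] (hM3 : 3 ≤ M) (hM : M ≠ 1) (ℓ : ℕ) (hℓ : ℓ.Prime)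
    (hH : ∀ (A : ValuationSubring Qb), A.LiesOverPrime 2 → ¬ 2 ∣ M → dst_HesseAt M 2 A) :
    dst_Good M ℓ hM := by
  refine dst_good_of hM3 hM ℓ hℓ hH (fun p hp hpM A hA => ?_)
  haveI : Fact p.Prime := ⟨hp⟩
  refine dst_diamondAt hM3 hM hpM A hA ?_
  by_cases h2 : p = 2
  · subst h2
    exact hH A hA hpM
  · exact ⟨fun h => absurd h h2, fun h => absurd h h2⟩

end Fermat.Agent.DS

end
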