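/-
DS-T, final assembly: **`dst_good : dst_Good M ℓ hM`, UNCONDITIONAL** (`3 ≤ M`, `ℓ` prime).

`dst_good_of_hesse` (the whole package: node E, S18, correspondence inputs, diamond reduction,
Kronecker congruence) + helper16's Hesse twin `gv1t_vertHes_base` / `gv1_vertHes` at `p = 2`.
-/
import Mathlib
import Fermat.Agent.DS.Tower.DiamondGam1
import Fermat.Agent.DS.GR.TopGam1

set_option autoImplicit false
set_option linter.unusedSectionVars false
set_option linter.style.haveILetI false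
set_option synthInstance.maxHeartbeats 400000
set_option maxHeartbeats 1000000

noncomputable section

namespace Fermat.Agent.DS

open Fermat.Agent.JT3 Fermat.Agent.S24 Fermat.Agent.S24.Br

local notation "Qb" => AlgebraicClosure ℚ

/-- (V)-Hesse for `X₁(M)` at a place over `2`, `M` odd -/
theorem dst_hesseAt {M : ℕ} [NeZero M] (hM3 : 3 ≤ M) (A : ValuationSubring Qb)
    (hA : A.LiesOverPrime 2) (h2M : ¬ 2 ∣ M) : dst_HesseAt M 2 A := by
  haveI : Fact (Nat.Prime 2) := ⟨Nat.prime_two⟩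
  have hM1 : M ≠ 1 := by omega
  refine ⟨fun _ h3 => ?_, fun _ => ?_⟩
  · haveI := ebf_isDVR A 2 hA
    exact gv1t_vertHes_base A hA M M hM3 (dvd_refl M) (by norm_num) h2M h3
  · exact gv1_vertHes A M M hM3 hA (by norm_num) h2M (g1dg_A1Q hM1 (dvd_refl M)) M (dvd_refl M)

/-- **the good-reduction seams of `X₁(M)` at all primes `p ∤ M ℓ`: UNCONDITIONAL** -/
theorem dst_good {M : ℕ} [NeZero M] (hM3 : 3 ≤ M) (hM : M ≠ 1) (ℓ : ℕ) (hℓ : ℓ.Prime) :
    dst_Good M ℓ hM :=
  dst_good_of_hesse hM3 hM ℓ hℓ (fun A hA h2M => dst_hesseAt hM3 A hA h2M)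

end Fermat.Agent.DS

end
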