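/-
DS-T, final assembly: THE `diamond` CLAUSE OF `dst_GoodAt` FROM ITS THREE PRODUCERS (prefix `dst_dc_`).

* `dst_dc_qexp_mem` : a coefficient-stable field of Laurent series over a perfect field of
  characteristic `p` is stable under `q ↦ q^p` (`x(q^p) = (Frob⁻¹ x)^p`);
* `dst_dc_hdeg`     : `finrankAlong Q̄ (dsh_alpha Q̄ (dsh_towerOne M p)) = p + 1`;
* `dst_dc_NLC`      : the seam `dsh_NLC` on a class `𝒞` for the tower `X(Γ₁(M) ∩ Γ₀(p)) → X₁(M)` from
  the swap embedding (`dsh_sw_swap`, helper24) and the reduction of the diamond `⟨p⟩` on `𝒞`;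
* **`dst_dc_diamond`** : the clause `diamond` of `dst_GoodAt` from `dsh_ClassGenerates 𝒞`
  (helper23), the reduction `δt` of `⟨p⟩` on `𝒞` (helper16) and the swap embedding (helper24).
-/
import Mathlib
import Fermat.Agent.DS.Tower.TorsionV
import Fermat.Agent.DS.Hecke.NormRedC
import Fermat.Agent.DS.Gam1.InstDegree
import Fermat.Agent.JT3.S18.ConstRed

set_option autoImplicit false
set_option synthInstance.maxHeartbeats 400000
set_option maxHeartbeats 1000000
set_option linter.style.haveILetI false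
set_option linter.unusedSectionVars false

noncomputable section

namespace Fermat.Agent.DS

open ModularCurve AlgebraicCurve HahnSeries IntermediateField Fermat.Agent.JT3
open Fermat.Agent.S24 Fermat.Agent.S24.Br

/-! ### stability under `q ↦ q^p` -/

section QExp

variable {k : Type*} [Field k] {p : ℕ} [NeZero p] [hp : Fact p.Prime] [CharP k p]
  [PerfectRing k p]

/-- a coefficient-stable field of Laurent series over a perfect field of characteristic `p` is
stable under `q ↦ q^p` -/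
theorem dst_dc_qexp_mem {Ft : IntermediateField k (LaurentSeries k)} (h : dsh_CoeffStable Ft)
    (x : LaurentSeries k) (hx : x ∈ Ft) : qExpand k p x ∈ Ft := by
  set φ : k →+* k := ((frobeniusEquiv k p).symm : k ≃+* k).toRingHom with hφ
  have h1 : coeffMap φ x ∈ Ft := h φ x hx
  have h2 : (coeffMap φ x) ^ p ∈ Ft := pow_mem h1 p
  rw [ca_pow_eq_qExpand_frobenius k p] at h2
  have h3 : coeffMap (frobenius k p) (coeffMap φ x) = x := by
    ext n
    rw [coeffMap_coeff, coeffMap_coeff, hφ]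
    exact frobenius_apply_frobeniusEquiv_symm k p _
  rwa [h3] at h2

end QExp

/-! ### the tower `X(Γ₁(M) ∩ Γ₀(p)) → X₁(M)` -/

section Tower

local notation "Qb" => AlgebraicClosure ℚ

variable {M : ℕ} [NeZero M] (hM : M ≠ 1) {p : ℕ} [NeZero p] [hp : Fact p.Prime]
  (hpM : ¬ p ∣ M)

include hM hpM in
/-- the degree of `α` is `p + 1` -/
theorem dst_dc_hdeg : finrankAlong Qb (dsh_alpha Qb (dsh_towerOne M p)) = p + 1 :=
  g1dg_finrankAlong Qb hM hp.out hpM (dsh_laurentBaseChange_mono Qb (dsh_towerOne M p).le)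

/-- there is a primitive `p`-th root of unity in `Q̄` -/
theorem dst_dc_exists_zeta : ∃ ζ : Qbˣ, IsPrimitiveRoot ζ p := by
  haveI : NeZero ((p : ℕ) : Qb) := ⟨by exact_mod_cast NeZero.ne p⟩
  obtain ⟨ζ, hζ⟩ := HasEnoughRootsOfUnity.exists_primitiveRoot Qb p
  have h0 : ζ ≠ 0 := hζ.ne_zero (NeZero.ne p)
  exact ⟨Units.mk0 ζ h0, IsPrimitiveRoot.coe_units_iff.mp (by simpa using hζ)⟩

variable (A : ValuationSubring Qb)

local notation "kA" => IsLocalRing.ResidueField A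

/-- **the seam `[NL1]` on a class** for the `Γ₁(M)` tower, from the swap embedding and the
reduction of the diamond `⟨p⟩` on the class -/
theorem dst_dc_NLC [CharP kA p]
    (𝒞 : Set (dsr_IntFun A (IsLocalRing.residue A) (g1i_F Qb M M) (g1f_FC kA M M)))
    (δt : g1f_FC kA M M ≃ₐ[kA] g1f_FC kA M M)
    (hδ : ∀ y ∈ 𝒞, ∃ z : dsr_IntFun A (IsLocalRing.residue A) (g1i_F Qb M M) (g1f_FC kA M M),
      dsr_gen z = g1dm_F Qb hM (dvd_refl M) (g1t_pU hpM) (dsr_gen y) ∧
      dsr_red z = δt (dsr_red y))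
    (hsw : ∃ w : laurentBaseChange Qb (dsh_towerOne M p).F₁ →+* LaurentSeries ℂ,
      (∀ x : laurentBaseChange Qb (dsh_towerOne M p).F₀,
        w (dsh_alpha Qb (dsh_towerOne M p) x)
          = coeffMap (br_iota : Qb →+* ℂ) (qExpand Qb p (x : LaurentSeries Qb))) ∧
      ∀ y : laurentBaseChange Qb (dsh_towerOne M p).F₀,
        w (dsh_beta Qb (dsh_towerOne M p) y)
          = coeffMap (br_iota : Qb →+* ℂ)
              ((g1dm_F Qb hM (dvd_refl M) (g1t_pU hpM) y : g1i_F Qb M M) : LaurentSeries Qb)) :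
    dsh_NLC A (IsLocalRing.residue A) (dsh_towerOne M p) (g1f_FC kA M M) 𝒞 δt := by
  obtain ⟨w, hwα, hwβ⟩ := hsw
  obtain ⟨ζ, hζ⟩ := dst_dc_exists_zeta (p := p)
  haveI : IsAlgClosed kA := jcr_isAlgClosed A
  haveI : ExpChar kA p := ExpChar.prime hp.out
  haveI : PerfectRing kA p := PerfectField.toPerfectRing p
  have hst : dsh_CoeffStable (g1f_FC kA M M) := dst_coeffStable kA M M
  refine dsh_nlc_NLC (L := Qb) (A := A) (π := IsLocalRing.residue A) (dsh_towerOne M p)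
    (fun y => g1dm_F Qb hM (dvd_refl M) (g1t_pU hpM) y) (fun y => δt y) 𝒞 hδ
    (dst_dc_hdeg hM hpM) (br_iota : Qb →+* ℂ) w hwα hwβ (g1dg_jF Qb M M) ?_ ζ hζ
    (fun x hx => hst (frobenius kA p) x hx) (fun x hx => dst_dc_qexp_mem hst x hx)
  have h1 : g1dm_F Qb hM (dvd_refl M) (g1t_pU hpM) (g1dg_jF Qb M M) = g1dg_jF Qb M M :=
    g1dm_F_jd Qb hM (dvd_refl M) (g1t_pU hpM) 1 (one_dvd M)
  show (((g1dm_F Qb hM (dvd_refl M) (g1t_pU hpM) (g1dg_jF Qb M M) : g1i_F Qb M M)) :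
    LaurentSeries Qb).coeff (-1) ≠ 0
  rw [h1, g1dg_jF_coe, coeff_jqModC_neg_one]
  exact one_ne_zero

/-- **the clause `diamond` of `dst_GoodAt`** from its three producers -/
theorem dst_dc_diamond [CharP kA p]
    (𝒞 : Set (dsr_IntFun A (IsLocalRing.residue A) (g1i_F Qb M M) (g1f_FC kA M M)))
    (δt : g1f_FC kA M M ≃ₐ[kA] g1f_FC kA M M)
    (h𝒞 : dsh_ClassGenerates 𝒞)
    (hδ : ∀ y ∈ 𝒞, ∃ z : dsr_IntFun A (IsLocalRing.residue A) (g1i_F Qb M M) (g1f_FC kA M M),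
      dsr_gen z = g1dm_F Qb hM (dvd_refl M) (g1t_pU hpM) (dsr_gen y) ∧
      dsr_red z = δt (dsr_red y))
    (hsw : ∃ w : laurentBaseChange Qb (dsh_towerOne M p).F₁ →+* LaurentSeries ℂ,
      (∀ x : laurentBaseChange Qb (dsh_towerOne M p).F₀,
        w (dsh_alpha Qb (dsh_towerOne M p) x)
          = coeffMap (br_iota : Qb →+* ℂ) (qExpand Qb p (x : LaurentSeries Qb))) ∧
      ∀ y : laurentBaseChange Qb (dsh_towerOne M p).F₀,
        w (dsh_beta Qb (dsh_towerOne M p) y)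
          = coeffMap (br_iota : Qb →+* ℂ)
              ((g1dm_F Qb hM (dvd_refl M) (g1t_pU hpM) y : g1i_F Qb M M) : LaurentSeries Qb)) :
    ∃ (𝒞 : Set (dsr_IntFun A (IsLocalRing.residue A) (g1i_F Qb M M) (g1f_FC kA M M)))
      (δt : g1f_FC kA M M ≃ₐ[kA] g1f_FC kA M M),
    dsh_ClassGenerates 𝒞 ∧
    (∀ y ∈ 𝒞, ∃ z : dsr_IntFun A (IsLocalRing.residue A) (g1i_F Qb M M) (g1f_FC kA M M),
      dsr_gen z = g1dm_F Qb hM (dvd_refl M) (g1t_pU hpM) (dsr_gen y) ∧
      dsr_red z = δt (dsr_red y)) ∧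
    dsh_NLC A (IsLocalRing.residue A) (dsh_towerOne M p) (g1f_FC kA M M) 𝒞 δt :=
  ⟨𝒞, δt, h𝒞, hδ, dst_dc_NLC hM hpM A 𝒞 δt hδ hsw⟩

end Tower

end Fermat.Agent.DS

end
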