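/-
DS-T, final assembly: TRANSPORT OF THE GOOD-REDUCTION INPUTS FROM THE GENERIC FAMILY `gr_F G ·`
(`G = g1f_GZ M M`) TO THE `Γ₁(M)` FIELDS `g1i_F Q̄ M M`, `g1f_FC k_A M M` OF `dst_GoodAt`.

* `dst_redInputs_congr`, `dst_inj_congr` : substitution along equalities of intermediate fields;
* `dst_red_of_gr` : clause `red` of `dst_GoodAt` from the node-E twin for the family `gr_F (g1f_GZ M M)`;
* `dst_inj_of_gr` : clause `inj` of `dst_GoodAt` from `gr_S18_top` with the `Γ₁` instances of
  (A1) `g1dg_A1Q`, (R) `g1i_ram_ramData_gr`; hypotheses (E), (V-Legendre), (V-Hesse).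
-/
import Mathlib
import Fermat.Agent.DS.Tower.TorsionV
import Fermat.Agent.DS.GR.Top
import Fermat.Agent.DS.Gam1.InstRam

set_option autoImplicit false
set_option synthInstance.maxHeartbeats 400000
set_option maxHeartbeats 1000000
set_option linter.style.haveILetI false
set_option linter.unusedSectionVars false

noncomputable section

namespace Fermat.Agent.DS

open ModularCurve AlgebraicCurve HahnSeries IntermediateField Fermat.Agent.JT3
open Fermat.Agent.S24 Fermat.Agent.S24.Br

section Congr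

variable {L : Type*} [Field L] (A : ValuationSubring L) {k : Type*} [Field k] (π : A →+* k)
  {F F' : IntermediateField L (LaurentSeries L)} {Ft Ft' : IntermediateField k (LaurentSeries k)}

/-- `dsr_ReductionInputs` along equalities of the fields -/
theorem dst_redInputs_congr (hF : F = F') (hFt : Ft = Ft') (h : dsr_ReductionInputs A π F Ft) :
    dsr_ReductionInputs A π F' Ft' := by
  subst hF hFt
  exact h

/-- injectivity of the reduction on `m`-torsion along equalities of the fields -/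
theorem dst_inj_congr (hF : F = F') (hFt : Ft = Ft') (m : ℕ)
    (h : ∀ z : Pic0 L F, m • z = 0 → dsr_reduction A π F Ft z = 0 → z = 0) :
    ∀ z : Pic0 L F', m • z = 0 → dsr_reduction A π F' Ft' z = 0 → z = 0 := by
  subst hF hFt
  exact h

end Congr

section Gam1

local notation "Qb" => AlgebraicClosure ℚ

variable {M : ℕ} [NeZero M] (A : ValuationSubring Qb)

local notation "kA" => IsLocalRing.ResidueField A

/-- clause `red` of `dst_GoodAt` from the node-E twin of the generic family -/
theorem dst_red_of_gr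
    (h : dsr_ReductionInputs A (IsLocalRing.residue A) (gr_F (g1f_GZ M M) Qb)
      (gr_F (g1f_GZ M M) kA)) :
    dsr_ReductionInputs A (IsLocalRing.residue A) (g1i_F Qb M M) (g1f_FC kA M M) :=
  dst_redInputs_congr A _ (g1i_ram_field_eq Qb M M).symm (g1f_FC_eq_gr_F kA M M).symm h

/-- clause `inj` of `dst_GoodAt` from `gr_S18_top` -/
theorem dst_inj_of_gr (hM : 3 ≤ M) {p : ℕ} [Fact p.Prime] (hA : A.LiesOverPrime p)
    (hpM : ¬ p ∣ M)
    (h : dsr_ReductionInputs A (IsLocalRing.residue A) (gr_F (g1f_GZ M M) Qb)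
      (gr_F (g1f_GZ M M) kA))
    (hvL : p ≠ 2 → gr_VertLeg (g1f_GZ M M) A M) (hvH : p = 2 → gr_VertHes (g1f_GZ M M) A M)
    (ℓ : ℕ) (hpℓ : ¬ p ∣ ℓ) :
    ∀ z : Pic0 Qb (g1i_F Qb M M), ℓ • z = 0 →
      dsr_reduction A (IsLocalRing.residue A) (g1i_F Qb M M) (g1f_FC kA M M) z = 0 → z = 0 := by
  have hM1 : M ≠ 1 := by omega
  refine dst_inj_congr A _ (g1i_ram_field_eq Qb M M).symm (g1f_FC_eq_gr_F kA M M).symm ℓ ?_
  intro z hz hz0
  exact gr_S18_top (g1f_GZ M M) A (g1dg_A1Q hM1 (dvd_refl M)) (g1f_jZ_mem_GZ M M) hA h ℓ hpℓ M hpM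
    (g1i_ram_ramData_gr hM1 (dvd_refl M)) hvL hvH z hz hz0

end Gam1

end Fermat.Agent.DS

end
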